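import Fermat.Prelude.Def_EllipticCurve_FrobeniusTrace

/-!
# Glue lemmas for Frobenius elements (piece B3 of FROB, used by S54)

General statements about `ValuationSubring.IsFrobeniusAt` (Prelude definition), independent of how
the Frobenius congruence on the ring of integers and the description `V = B_Q` are obtained.
-/

set_option autoImplicit false

namespace Fermat.Agent.Lib.FrobGlue

open scoped Pointwise

variable {K L : Type*} [Field K] [Field L] [Algebra K L]

/-- `σ` in the decomposition group acting as `x ↦ x ^ q` modulo the maximal ideal is a Frobenius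
element. -/
theorem isFrobeniusAt_of_forall (A : ValuationSubring L) (σ : L ≃ₐ[K] L) (q : ℕ)
    (hσ : σ ∈ A.decompositionSubgroup K)
    (h : ∀ x : A, (⟨σ, hσ⟩ : A.decompositionSubgroup K) • x - x ^ q ∈
      IsLocalRing.maximalIdeal A) :
    A.IsFrobeniusAt σ q := by
  refine ⟨hσ, fun x => ?_⟩
  obtain ⟨a, rfl⟩ := IsLocalRing.residue_surjective x
  rw [← IsLocalRing.ResidueField.residue_smul, ← map_pow, ← sub_eq_zero, ← map_sub,
    IsLocalRing.residue_eq_zero_iff]
  exact h a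

/-- Membership in the decomposition subgroup from the two inclusions. -/
theorem mem_decompositionSubgroup_of_forall (A : ValuationSubring L) (σ : L ≃ₐ[K] L)
    (h1 : ∀ x ∈ A, σ x ∈ A) (h2 : ∀ x ∈ A, σ.symm x ∈ A) :
    σ ∈ A.decompositionSubgroup K := by
  rw [MulAction.mem_stabilizer_iff]
  apply le_antisymm
  · intro x hx
    rw [ValuationSubring.mem_pointwise_smul_iff_inv_smul_mem] at hx
    have := h1 _ hx
    simpa using this
  · intro x hx
    rw [ValuationSubring.mem_pointwise_smul_iff_inv_smul_mem]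
    exact h2 x hx

/-- One-directional stability: if `τ` maps `B` into `B`, its left inverse `τ'` maps `B ∩ 𝔪_V` into
`𝔪_V`, and `V = B_Q` (hypothesis `hIF`), then `τ` maps `V`-units of `B` to `V`-units and `V` into
`V`. -/
theorem map_mem_of_subring (V : ValuationSubring L) (B : Subring L) (τ τ' : L →+* L)
    (hττ' : ∀ x, τ' (τ x) = x)
    (hBV : ∀ b ∈ B, b ∈ V)
    (hτB : ∀ b ∈ B, τ b ∈ B)
    (hIF : ∀ x ∈ V, ∃ s ∈ B, s ∉ V.nonunits ∧ s * x ∈ B)
    (hτ'Q : ∀ b ∈ B, b ∈ V.nonunits → τ' b ∈ V.nonunits) :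
    (∀ s ∈ B, s ∉ V.nonunits → V.valuation (τ s) = 1) ∧ ∀ x ∈ V, τ x ∈ V := by
  have key : ∀ s ∈ B, s ∉ V.nonunits → V.valuation (τ s) = 1 := by
    intro s hsB hs
    have h1 : V.valuation (τ s) ≤ 1 := (V.valuation_le_one_iff _).2 (hBV _ (hτB s hsB))
    rcases lt_or_eq_of_le h1 with h | h
    · exfalso
      apply hs
      have := hτ'Q (τ s) (hτB s hsB) (V.mem_nonunits_iff.2 h)
      rwa [hττ'] at this
    · exact h
  refine ⟨key, fun x hx => ?_⟩
  obtain ⟨s, hsB, hs, hsx⟩ := hIF x hx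
  have h2 : V.valuation (τ (s * x)) ≤ 1 := (V.valuation_le_one_iff _).2 (hBV _ (hτB _ hsx))
  rw [map_mul, map_mul, key s hsB hs, one_mul] at h2
  exact (V.valuation_le_one_iff _).1 h2

/-- Glue lemma: `B` is a subring of `L` (think: the integral closure of `ℤ`), stable under `σ`
and `σ⁻¹`; `V` a valuation subring containing `B` which is the localization of `B` at
`Q = B ∩ 𝔪_V` (hypothesis `hIF`); `σ` and `σ⁻¹` preserve `Q` and `σ` acts as `x ↦ x ^ q` on `B`
modulo `Q`. Then `σ` is a Frobenius element for `V`. -/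
theorem isFrobeniusAt_of_subring (V : ValuationSubring L) (B : Subring L) (σ : L ≃ₐ[K] L) (q : ℕ)
    (hBV : ∀ b ∈ B, b ∈ V)
    (hσB : ∀ b ∈ B, σ b ∈ B) (hσB' : ∀ b ∈ B, σ.symm b ∈ B)
    (hIF : ∀ x ∈ V, ∃ s ∈ B, s ∉ V.nonunits ∧ s * x ∈ B)
    (hσQ : ∀ b ∈ B, b ∈ V.nonunits → σ b ∈ V.nonunits)
    (hσQ' : ∀ b ∈ B, b ∈ V.nonunits → σ.symm b ∈ V.nonunits)
    (hfrob : ∀ b ∈ B, σ b - b ^ q ∈ V.nonunits) :
    V.IsFrobeniusAt σ q := by
  obtain ⟨key, h1⟩ := map_mem_of_subring V B (σ : L →+* L) (σ.symm : L →+* L)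
    (fun x => by simp) hBV hσB hIF hσQ'
  obtain ⟨-, h2⟩ := map_mem_of_subring V B (σ.symm : L →+* L) (σ : L →+* L)
    (fun x => by simp) hBV hσB' hIF hσQ
  have hσ : σ ∈ V.decompositionSubgroup K :=
    mem_decompositionSubgroup_of_forall V σ (fun x hx => h1 x hx) (fun x hx => h2 x hx)
  refine isFrobeniusAt_of_forall V σ q hσ fun x => ?_
  rw [← ValuationSubring.coe_mem_nonunits_iff, ValuationSubring.mem_nonunits_iff]
  obtain ⟨s, hsB, hs, hsx⟩ := hIF x x.2
  have hs1 : V.valuation s = 1 := by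
    have h1 : V.valuation s ≤ 1 := (V.valuation_le_one_iff _).2 (hBV _ hsB)
    rcases lt_or_eq_of_le h1 with h | h
    · exact absurd (V.mem_nonunits_iff.2 h) hs
    · exact h
  have hσs1 : V.valuation (σ s) = 1 := key s hsB hs
  have hcoe : ((((⟨σ, hσ⟩ : V.decompositionSubgroup K) • x - x ^ q : V)) : L) =
      σ (x : L) - (x : L) ^ q := rfl
  rw [hcoe]
  have hid : (σ (x : L) - (x : L) ^ q) * (σ s * s ^ q) =
      (σ (s * x) - (s * x) ^ q) * s ^ q - (s * x) ^ q * (σ s - s ^ q) := by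
    rw [map_mul]; ring
  have hlt : V.valuation ((σ (x : L) - (x : L) ^ q) * (σ s * s ^ q)) < 1 := by
    rw [hid]
    apply Valuation.map_sub_lt
    · rw [map_mul, map_pow, hs1, one_pow, mul_one]
      exact V.mem_nonunits_iff.1 (hfrob _ hsx)
    · rw [map_mul]
      have ha : V.valuation ((s * x) ^ q) ≤ 1 := by
        rw [map_pow]
        exact pow_le_one' ((V.valuation_le_one_iff _).2 (hBV _ hsx)) q
      have hb : V.valuation (σ s - s ^ q) < 1 := V.mem_nonunits_iff.1 (hfrob _ hsB)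
      calc V.valuation ((s * x) ^ q) * V.valuation (σ s - s ^ q)
          ≤ 1 * V.valuation (σ s - s ^ q) := by gcongr
        _ < 1 := by rwa [one_mul]
  rwa [map_mul, map_mul, map_pow, hs1, hσs1, one_pow, one_mul, mul_one] at hlt

end Fermat.Agent.Lib.FrobGlue
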