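import Mathlib

/-!
# Lemma IF: a valuation subring of an algebraic extension of `ℚ` is a localisation of the
ring of algebraic integers.

Owner: helper82.  Main result: `Fermat.Agent.Lib.FrobeniusIF.exists_unit_mul_isIntegral`.
-/

set_option autoImplicit false

namespace Fermat.Agent.Lib.FrobeniusIF

open Polynomial

variable {K : Type*} [Field K]

/-- Core combinatorial lemma: if `∑_{i ≤ n} a i * x^i = 0` then the "upper part"
`s = ∑_{r ≤ i ≤ n} a i * x^(i-r)` and `s * x` belong to every valuation subring `W`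
containing the `a i`. -/
theorem upper_part_mem (W : ValuationSubring K) (x : K) (a : ℕ → K) (ha : ∀ i, a i ∈ W)
    (n r : ℕ) (hr : r ≤ n)
    (h0 : ∑ i ∈ Finset.range (n + 1), a i * x ^ i = 0) :
    (∑ i ∈ Finset.Ico r (n + 1), a i * x ^ (i - r)) ∈ W ∧
    (∑ i ∈ Finset.Ico r (n + 1), a i * x ^ (i - r)) * x ∈ W := by
  by_cases hxW : x ∈ W
  · have h1 : (∑ i ∈ Finset.Ico r (n + 1), a i * x ^ (i - r)) ∈ W :=
      W.toSubring.sum_mem fun i _ => W.mul_mem _ _ (ha i) (W.toSubring.pow_mem hxW _)
    exact ⟨h1, W.mul_mem _ _ h1 hxW⟩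
  · have hx0 : x ≠ 0 := fun h => hxW (h ▸ W.zero_mem)
    have hxinv : x⁻¹ ∈ W := (W.mem_or_inv_mem x).resolve_left hxW
    have hsplit : ∑ i ∈ Finset.range r, a i * x ^ i +
        x ^ r * ∑ i ∈ Finset.Ico r (n + 1), a i * x ^ (i - r) = 0 := by
      rw [Finset.range_eq_Ico] at h0 ⊢
      rw [← h0, ← Finset.sum_Ico_consecutive _ (Nat.zero_le r) (by omega : r ≤ n + 1)]
      congr 1
      rw [Finset.mul_sum]
      refine Finset.sum_congr rfl fun i hi => ?_
      have : r ≤ i := (Finset.mem_Ico.mp hi).1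
      rw [mul_left_comm, ← pow_add, Nat.add_sub_cancel' this]
    have hxr : x ^ r ≠ 0 := pow_ne_zero _ hx0
    have hs : ∑ i ∈ Finset.Ico r (n + 1), a i * x ^ (i - r) =
        - ∑ i ∈ Finset.range r, a i * (x⁻¹) ^ (r - i) := by
      apply mul_left_cancel₀ hxr
      rw [eq_neg_of_add_eq_zero_right hsplit, mul_neg, Finset.mul_sum]
      congr 1
      refine Finset.sum_congr rfl fun i hi => ?_
      have hi' : i ≤ r := (Finset.mem_range.mp hi).le
      rw [mul_left_comm, inv_pow, ← pow_sub₀ x hx0 (Nat.sub_le r i), Nat.sub_sub_self hi']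
    have hsx : (∑ i ∈ Finset.Ico r (n + 1), a i * x ^ (i - r)) * x =
        - ∑ i ∈ Finset.range r, a i * (x⁻¹) ^ (r - i - 1) := by
      rw [hs, neg_mul, Finset.sum_mul]
      congr 1
      refine Finset.sum_congr rfl fun i hi => ?_
      have hi' : i < r := Finset.mem_range.mp hi
      have : r - i = (r - i - 1) + 1 := by omega
      rw [mul_assoc]
      congr 1
      conv_lhs => rw [this, pow_succ, mul_assoc, inv_mul_cancel₀ hx0, mul_one]
    constructor
    · rw [hs]
      exact W.neg_mem _ (W.toSubring.sum_mem fun i _ =>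
        W.mul_mem _ _ (ha i) (W.toSubring.pow_mem hxinv _))
    · rw [hsx]
      exact W.neg_mem _ (W.toSubring.sum_mem fun i _ =>
        W.mul_mem _ _ (ha i) (W.toSubring.pow_mem hxinv _))

/-- An element lying in every valuation subring of a field is integral over `ℤ`. -/
theorem isIntegral_int_of_forall_mem {y : K} (h : ∀ W : ValuationSubring K, y ∈ W) :
    IsIntegral ℤ y := by
  by_contra hy
  have hy' : y ∉ (integralClosure ℤ K).toSubring := hy
  obtain ⟨V, -, hV⟩ := Subring.exists_le_valuationSubring_of_isIntegrallyClosedIn hy'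
  exact hV (h V)

/-- An element integral over `ℤ` lies in every valuation subring. -/
theorem mem_of_isIntegral_int (V : ValuationSubring K) {y : K} (hy : IsIntegral ℤ y) : y ∈ V := by
  have h1 : IsIntegral V y := hy.tower_top
  obtain ⟨z, hz⟩ := IsIntegrallyClosed.isIntegral_iff.mp h1
  rw [← hz]
  exact z.2

/-- Existence of a primitive integer polynomial killing an algebraic element. -/
theorem exists_primitive_aeval_eq_zero [CharZero K] {x : K} (hx : IsAlgebraic ℤ x) :
    ∃ f : ℤ[X], f.IsPrimitive ∧ f ≠ 0 ∧ aeval x f = 0 := by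
  obtain ⟨g, hg0, hg⟩ := hx
  refine ⟨g.primPart, g.isPrimitive_primPart, g.primPart_ne_zero, ?_⟩
  have h1 : aeval x g = aeval x (C g.content * g.primPart) := by
    rw [← g.eq_C_content_mul_primPart]
  rw [hg, map_mul, aeval_C] at h1
  have hc : (algebraMap ℤ K) g.content ≠ 0 := by
    rw [Ne, map_eq_zero_iff _ (algebraMap ℤ K).injective_int]
    exact content_eq_zero_iff.not.mpr hg0
  exact (mul_eq_zero.mp h1.symm).resolve_left hc

theorem mul_mem_nonunits (V : ValuationSubring K) {a b : K} (ha : a ∈ V.nonunits) (hb : b ∈ V) :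
    a * b ∈ V.nonunits := by
  rw [ValuationSubring.mem_nonunits_iff_exists_mem_maximalIdeal] at ha ⊢
  obtain ⟨ha', ham⟩ := ha
  exact ⟨V.mul_mem _ _ ha' hb, Ideal.mul_mem_right (⟨b, hb⟩ : V) _ ham⟩

theorem exists_coeff_not_mem_nonunits (V : ValuationSubring K) {f : ℤ[X]} (hf : f.IsPrimitive) :
    ∃ i, ((f.coeff i : ℤ) : K) ∉ V.nonunits := by
  by_contra hcon
  push Not at hcon
  let P : Ideal ℤ := Ideal.comap (algebraMap ℤ V) (IsLocalRing.maximalIdeal V)
  have hP : P ≠ ⊤ := Ideal.comap_ne_top _ (IsLocalRing.maximalIdeal.isMaximal V).ne_top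
  obtain ⟨g, hg⟩ := (IsPrincipalIdealRing.principal P).principal
  have hmem : ∀ i, f.coeff i ∈ P := fun i => by
    rw [Ideal.mem_comap, ← ValuationSubring.coe_mem_nonunits_iff]
    simpa using hcon i
  have hdvd : C g ∣ f := by
    rw [C_dvd_iff_dvd_coeff]
    intro i
    have := hmem i
    rw [hg] at this
    exact Ideal.mem_span_singleton.mp this
  have hu : IsUnit g := hf g hdvd
  apply hP
  rw [hg]
  exact Ideal.span_singleton_eq_top.mpr hu

/-- **Lemma IF.** Let `V` be a valuation subring of a field `K` of characteristic zero and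
`x ∈ V` algebraic over `ℚ`.  Then there is an algebraic integer `s`, a unit of `V`, such that
`s * x` is an algebraic integer.  In other words `V` is the localisation of the ring of
algebraic integers of `K` at the prime `𝔪_V ∩ 𝓞`. -/
theorem exists_unit_mul_isIntegral [CharZero K] (V : ValuationSubring K) {x : K}
    (hxalg : IsAlgebraic ℤ x) (hx : x ∈ V) :
    ∃ s : K, IsIntegral ℤ s ∧ s ∉ V.nonunits ∧ IsIntegral ℤ (s * x) := by
  classical
  obtain ⟨f, hfprim, -, hfx⟩ := exists_primitive_aeval_eq_zero hxalg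
  set a : ℕ → K := fun i => ((f.coeff i : ℤ) : K) with ha_def
  set n := f.natDegree with hn_def
  have h0 : ∑ i ∈ Finset.range (n + 1), a i * x ^ i = 0 := by
    rw [aeval_eq_sum_range] at hfx
    rw [← hfx]
    refine Finset.sum_congr rfl fun i _ => ?_
    rw [ha_def, zsmul_eq_mul]
  obtain ⟨i₀, hi₀⟩ := exists_coeff_not_mem_nonunits V hfprim
  have hi₀n : i₀ ≤ n := by
    by_contra hlt
    push Not at hlt
    apply hi₀
    rw [coeff_eq_zero_of_natDegree_lt hlt, Int.cast_zero]
    exact V.nonunits.zero_mem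
  set r := Nat.findGreatest (fun i => a i ∉ V.nonunits) n with hr_def
  have hrn : r ≤ n := Nat.findGreatest_le n
  have har : a r ∉ V.nonunits :=
    Nat.findGreatest_spec (P := fun i => a i ∉ V.nonunits) hi₀n hi₀
  have hgt : ∀ i, r < i → i ≤ n → a i ∈ V.nonunits := fun i hri hin => by
    have := Nat.findGreatest_is_greatest (P := fun i => a i ∉ V.nonunits) hri hin
    exact not_not.mp this
  refine ⟨∑ i ∈ Finset.Ico r (n + 1), a i * x ^ (i - r), ?_, ?_, ?_⟩
  · exact isIntegral_int_of_forall_mem fun W =>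
      (upper_part_mem W x a (fun i => intCast_mem W _) n r hrn h0).1
  · intro hs
    rw [Finset.sum_eq_sum_Ico_succ_bot (by omega : r < n + 1), Nat.sub_self, pow_zero,
      mul_one] at hs
    have hrest : ∑ i ∈ Finset.Ico (r + 1) (n + 1), a i * x ^ (i - r) ∈ V.nonunits := by
      refine V.nonunits.sum_mem fun i hi => ?_
      obtain ⟨h1, h2⟩ := Finset.mem_Ico.mp hi
      exact mul_mem_nonunits V (hgt i (by omega) (by omega)) (V.toSubring.pow_mem hx _)
    apply har
    have := V.nonunits.sub_mem hs hrest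
    simpa using this
  · exact isIntegral_int_of_forall_mem fun W =>
      (upper_part_mem W x a (fun i => intCast_mem W _) n r hrn h0).2

/-- `AlgebraicClosure ℚ` is algebraic over `ℚ` for the default (`DivisionRing.toRatAlgebra`)
algebra structure, which is the one used by the Prelude for `Gal(ℚ̄/ℚ)`. -/
theorem isAlgebraic_rat_algebraicClosure : Algebra.IsAlgebraic ℚ (AlgebraicClosure ℚ) := by
  have h := AlgebraicClosure.isAlgebraic ℚ
  have e : (AlgebraicClosure.instAlgebra ℚ : Algebra ℚ (AlgebraicClosure ℚ)) =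
      DivisionRing.toRatAlgebra := Subsingleton.elim _ _
  rw [e] at h
  exact h

theorem isAlgebraic_int_algebraicClosure (x : AlgebraicClosure ℚ) : IsAlgebraic ℤ x :=
  haveI := isAlgebraic_rat_algebraicClosure
  (IsFractionRing.isAlgebraic_iff ℤ ℚ (AlgebraicClosure ℚ)).mpr
    (Algebra.IsAlgebraic.isAlgebraic x)

/-- Version of Lemma IF for the algebraic closure of `ℚ`. -/
theorem exists_unit_mul_isIntegral_algebraicClosure (V : ValuationSubring (AlgebraicClosure ℚ))
    {x : AlgebraicClosure ℚ} (hx : x ∈ V) :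
    ∃ s : AlgebraicClosure ℚ, IsIntegral ℤ s ∧ s ∉ V.nonunits ∧ IsIntegral ℤ (s * x) :=
  exists_unit_mul_isIntegral V (isAlgebraic_int_algebraicClosure x) hx

end Fermat.Agent.Lib.FrobeniusIF
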