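import Mathlib
import Fermat.Prelude.Def_EllipticCurve_FrobeniusTrace
import Fermat.Agent.Lib.FrobGlue
import Fermat.Agent.Lib.FrobeniusIF

/-!
# Assembly of FROB from the Frobenius congruence on the ring of algebraic integers

`exists_isFrobeniusAt_of_congruence`: given a prime `Q` of `integralClosure ℤ Qbar` containing `ℓ`
and `σ` with `σ • Q = Q` and `σ • b ≡ b ^ ℓ mod Q`, there is a valuation subring `A` over `ℓ` with
`A.IsFrobeniusAt σ ℓ`.  Owner: helper87.
-/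

set_option autoImplicit false

namespace Fermat.Agent.Lib.FrobAsm

open scoped Pointwise

section general
variable {L : Type*} [Field L]

/-- existence of a valuation subring above a proper ideal of the integral closure. -/
theorem exists_valuationSubring_of_ideal (Q : Ideal (integralClosure ℤ L)) (hQ : Q ≠ ⊤) :
    ∃ V : ValuationSubring L, (∀ b : L, IsIntegral ℤ b → b ∈ V) ∧
      ∀ b ∈ Q, (b : L) ∈ V.nonunits := by
  let A : Subring L := (integralClosure ℤ L).toSubring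
  let I : Ideal A := Q
  have hI : I ≠ ⊤ := hQ
  obtain ⟨V, hV1, hV2⟩ := Ideal.image_subset_nonunits_valuationSubring I hI
  refine ⟨V, fun b hb => hV1 hb, fun b hb => hV2 ⟨b, hb, rfl⟩⟩

/-- If `Q` is maximal and contained in `𝔪_V`, then `Q = B ∩ 𝔪_V`. -/
theorem mem_iff_mem_nonunits (Q : Ideal (integralClosure ℤ L)) [hQ : Q.IsMaximal]
    (V : ValuationSubring L) (hBV : ∀ b : L, IsIntegral ℤ b → b ∈ V)
    (hQV : ∀ b ∈ Q, (b : L) ∈ V.nonunits) (b : integralClosure ℤ L) :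
    (b : L) ∈ V.nonunits ↔ b ∈ Q := by
  refine ⟨fun hb => ?_, hQV b⟩
  by_contra hbQ
  -- Q + (b) = ⊤, so 1 = q + c * b with q ∈ Q; then 1 ∈ 𝔪_V
  obtain ⟨c, q, hq, hcq⟩ := hQ.exists_inv hbQ
  have h1 : ((c * b + q : integralClosure ℤ L) : L) ∈ V.nonunits := by
    push_cast
    rw [V.mem_nonunits_iff]
    apply Valuation.map_add_lt
    · rw [map_mul]
      have hc : V.valuation (c : L) ≤ 1 := (V.valuation_le_one_iff _).2 (hBV _ c.2)
      have hb' : V.valuation (b : L) < 1 := V.mem_nonunits_iff.1 hb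
      calc V.valuation (c : L) * V.valuation (b : L) ≤ 1 * V.valuation (b : L) := by gcongr
        _ < 1 := by rwa [one_mul]
    · exact V.mem_nonunits_iff.1 (hQV q hq)
  rw [hcq] at h1
  rw [V.mem_nonunits_iff] at h1
  simp at h1

end general

end Fermat.Agent.Lib.FrobAsm

namespace Fermat.Agent.Lib.FrobAsm

open scoped Pointwise

local notation "Qbar" => AlgebraicClosure ℚ

theorem exists_isFrobeniusAt_of_congruence (ℓ : ℕ) (hℓ : ℓ.Prime)
    (Q : Ideal (integralClosure ℤ Qbar)) [hQp : Q.IsPrime]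
    (hℓQ : (ℓ : integralClosure ℤ Qbar) ∈ Q)
    (σ : Qbar ≃ₐ[ℚ] Qbar) (hσQ : σ • Q = Q)
    (hfrob : ∀ b : integralClosure ℤ Qbar, σ • b - b ^ ℓ ∈ Q) :
    ∃ A : ValuationSubring Qbar, A.LiesOverPrime ℓ ∧ A.IsFrobeniusAt σ ℓ := by
  -- Q is maximal
  have hmaxℓ : (Ideal.span {(ℓ : ℤ)}).IsMaximal :=
    PrincipalIdealRing.isMaximal_of_irreducible (Nat.prime_iff_prime_int.1 hℓ).irreducible
  have hcomap : Q.comap (algebraMap ℤ (integralClosure ℤ Qbar)) = Ideal.span {(ℓ : ℤ)} := by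
    symm
    apply hmaxℓ.eq_of_le (Ideal.comap_ne_top _ hQp.ne_top)
    rw [Ideal.span_le, Set.singleton_subset_iff]
    simpa using hℓQ
  have hQmax : Q.IsMaximal :=
    Ideal.isMaximal_of_isIntegral_of_isMaximal_comap Q (hcomap ▸ hmaxℓ)
  obtain ⟨V, hBV, hQV⟩ := exists_valuationSubring_of_ideal Q hQp.ne_top
  have hiff := mem_iff_mem_nonunits Q (hQ := hQmax) V hBV hQV
  refine ⟨V, ?_, ?_⟩
  · have := hQV _ hℓQ
    simpa [ValuationSubring.LiesOverPrime] using this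
  · have hσQ' : σ⁻¹ • Q = Q := by rw [inv_smul_eq_iff, hσQ]
    refine FrobGlue.isFrobeniusAt_of_subring V (integralClosure ℤ Qbar).toSubring σ ℓ
      (fun b hb => hBV b hb) ?_ ?_ ?_ ?_ ?_ ?_
    · intro b hb
      exact (σ • (⟨b, hb⟩ : integralClosure ℤ Qbar)).2
    · intro b hb
      exact (σ⁻¹ • (⟨b, hb⟩ : integralClosure ℤ Qbar)).2
    · intro x hx
      obtain ⟨s, hs, hsV, hsx⟩ := FrobeniusIF.exists_unit_mul_isIntegral_algebraicClosure V hx
      exact ⟨s, hs, hsV, hsx⟩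
    · intro b hb hbV
      have h1 : (⟨b, hb⟩ : integralClosure ℤ Qbar) ∈ Q := (hiff ⟨b, hb⟩).1 hbV
      have h2 : σ • (⟨b, hb⟩ : integralClosure ℤ Qbar) ∈ σ • Q := Ideal.smul_mem_pointwise_smul _ _ _ h1
      rw [hσQ] at h2
      exact (hiff _).2 h2
    · intro b hb hbV
      have h1 : (⟨b, hb⟩ : integralClosure ℤ Qbar) ∈ Q := (hiff ⟨b, hb⟩).1 hbV
      have h2 : σ⁻¹ • (⟨b, hb⟩ : integralClosure ℤ Qbar) ∈ σ⁻¹ • Q := Ideal.smul_mem_pointwise_smul _ _ _ h1
      rw [hσQ'] at h2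
      exact (hiff _).2 h2
    · intro b hb
      exact (hiff _).2 (hfrob ⟨b, hb⟩)

end Fermat.Agent.Lib.FrobAsm
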