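import Mathlib
import Fermat.Prelude.Def_EllipticCurve_FrobeniusTrace

set_option autoImplicit false

open scoped Pointwise

namespace Fermat.Agent.Lib.FrobGlueSubring

variable {K L : Type*} [Field K] [Field L] [Algebra K L]

/-- An automorphism of an algebraic extension has finite orbits: its inverse acts on `x` like a
nonnegative power. -/
theorem exists_pow_apply_eq_symm_apply [Algebra.IsAlgebraic K L] (σ : L ≃ₐ[K] L) (x : L) :
    ∃ k : ℕ, (σ ^ k) x = σ.symm x := by
  classical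
  have hfin : ((minpoly K x).rootSet L).Finite := Polynomial.rootSet_finite _ _
  have hx0 : minpoly K x ≠ 0 := minpoly.ne_zero (Algebra.IsIntegral.isIntegral x)
  have hmem : ∀ n : ℕ, (σ ^ n) x ∈ (minpoly K x).rootSet L := by
    intro n
    rw [Polynomial.mem_rootSet]
    refine ⟨hx0, ?_⟩
    rw [Polynomial.aeval_algHom_apply, minpoly.aeval, map_zero]
  obtain ⟨m, n, hmn, h⟩ : ∃ m n : ℕ, m < n ∧ (σ ^ m) x = (σ ^ n) x := by
    by_contra hcon
    push Not at hcon
    have hinj : Function.Injective (fun n : ℕ => (⟨(σ ^ n) x, hmem n⟩ : (minpoly K x).rootSet L)) := by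
      intro a b hab
      have hab' : (σ ^ a) x = (σ ^ b) x := congrArg Subtype.val hab
      rcases lt_trichotomy a b with h | h | h
      · exact absurd hab' (hcon a b h)
      · exact h
      · exact absurd hab'.symm (hcon b a h)
    have := hfin.to_subtype
    exact not_injective_infinite_finite _ hinj
  refine ⟨n - m - 1, ?_⟩
  have h1 : (σ ^ (n - m)) x = x := by
    have : (σ ^ m) ((σ ^ (n - m)) x) = (σ ^ m) x := by
      rw [← AlgEquiv.mul_apply, ← pow_add, Nat.add_sub_cancel' hmn.le, h]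
    exact (σ ^ m).injective this
  have h2 : σ ((σ ^ (n - m - 1)) x) = x := by
    rw [← AlgEquiv.mul_apply, ← pow_succ', Nat.sub_add_cancel (Nat.sub_pos_of_lt hmn)]
    exact h1
  rw [← h2, AlgEquiv.symm_apply_apply, h2]

section Glue

variable [Algebra.IsAlgebraic K L] (B : Subring L) (V : ValuationSubring L)
  (σ : L ≃ₐ[K] L) (q : ℕ)

omit [Algebra.IsAlgebraic K L] in
/-- Key valuation estimate: if `σ b ≡ b ^ q` modulo the maximal ideal for `b ∈ B`, and
`s ∈ B` is a unit of `V`, then `σ s` has valuation one. -/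
theorem valuation_apply_eq_one
    (hfrob : ∀ b ∈ B, σ b - b ^ q ∈ V.nonunits) {s : L} (hsB : s ∈ B)
    (hs : V.valuation s = 1) : V.valuation (σ s) = 1 := by
  have h1 : V.valuation (s ^ q) = 1 := by rw [map_pow, hs, one_pow]
  have h2 : V.valuation (σ s - s ^ q) < V.valuation (s ^ q) := by
    rw [h1]; exact V.mem_nonunits_iff.mp (hfrob s hsB)
  rw [Valuation.map_eq_of_sub_lt _ h2, h1]

omit [Algebra.IsAlgebraic K L] in
/-- `σ` maps `V` into `V`, and more precisely `σ x ≡ x ^ q` modulo the nonunits. -/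
theorem apply_sub_pow_mem_nonunits
    (hBV : ∀ b ∈ B, b ∈ V)
    (hfrob : ∀ b ∈ B, σ b - b ^ q ∈ V.nonunits)
    (hIF : ∀ x ∈ V, ∃ s ∈ B, s ∉ V.nonunits ∧ s * x ∈ B) {x : L} (hx : x ∈ V) :
    σ x - x ^ q ∈ V.nonunits := by
  obtain ⟨s, hsB, hsnu, hsx⟩ := hIF x hx
  have hsV : s ∈ V := hBV s hsB
  have hs1 : V.valuation s = 1 := by
    rcases (V.valuation_lt_one_or_eq_one ⟨s, hsV⟩) with h | h
    · exact absurd (V.mem_nonunits_iff.mpr h) hsnu
    · exact h
  have hs0 : s ≠ 0 := by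
    rintro rfl
    rw [map_zero] at hs1
    exact zero_ne_one hs1
  have hσs1 : V.valuation (σ s) = 1 := valuation_apply_eq_one B V σ q hfrob hsB hs1
  have hσs0 : σ s ≠ 0 := by
    intro h
    rw [h, map_zero] at hσs1
    exact zero_ne_one hσs1
  set b := s * x with hb
  -- the identity `σ s * s ^ q * (σ x - x ^ q) = (σ b - b ^ q) * s ^ q - b ^ q * (σ s - s ^ q)`... 
  have hid : σ s * (σ x - x ^ q) = (σ b - b ^ q) - x ^ q * (σ s - s ^ q) := by
    rw [hb, map_mul, mul_pow]; ring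
  have hv1 : V.valuation (σ b - b ^ q) < 1 :=
    V.mem_nonunits_iff.mp (hfrob b hsx)
  have hv2 : V.valuation (x ^ q * (σ s - s ^ q)) < 1 := by
    rw [map_mul, map_pow]
    have hx1 : V.valuation x ≤ 1 := (V.valuation_le_one_iff x).mpr hx
    have h3 : V.valuation (σ s - s ^ q) < 1 :=
      V.mem_nonunits_iff.mp (hfrob s hsB)
    calc V.valuation x ^ q * V.valuation (σ s - s ^ q)
        ≤ 1 * V.valuation (σ s - s ^ q) := by
          gcongr
          exact pow_le_one' hx1 q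
      _ < 1 := by rwa [one_mul]
  have hv : V.valuation (σ s * (σ x - x ^ q)) < 1 := by
    rw [hid]
    exact lt_of_le_of_lt (Valuation.map_sub _ _ _) (max_lt hv1 hv2)
  rw [map_mul, hσs1, one_mul] at hv
  exact V.mem_nonunits_iff.mpr hv

omit [Algebra.IsAlgebraic K L] in
theorem apply_mem
    (hBV : ∀ b ∈ B, b ∈ V)
    (hfrob : ∀ b ∈ B, σ b - b ^ q ∈ V.nonunits)
    (hIF : ∀ x ∈ V, ∃ s ∈ B, s ∉ V.nonunits ∧ s * x ∈ B) {x : L} (hx : x ∈ V) :
    σ x ∈ V := by
  have h := apply_sub_pow_mem_nonunits B V σ q hBV hfrob hIF hx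
  have h1 : σ x - x ^ q ∈ V := V.nonunits_subset h
  have h2 : x ^ q ∈ V := pow_mem hx q
  have := add_mem h1 h2
  rwa [sub_add_cancel] at this

omit [Algebra.IsAlgebraic K L] in
theorem pow_apply_mem
    (hBV : ∀ b ∈ B, b ∈ V)
    (hfrob : ∀ b ∈ B, σ b - b ^ q ∈ V.nonunits)
    (hIF : ∀ x ∈ V, ∃ s ∈ B, s ∉ V.nonunits ∧ s * x ∈ B) (k : ℕ) {x : L} (hx : x ∈ V) :
    (σ ^ k) x ∈ V := by
  induction k with
  | zero => simpa using hx
  | succ k ih =>
    rw [pow_succ', AlgEquiv.mul_apply]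
    exact apply_mem B V σ q hBV hfrob hIF ih

theorem mem_decompositionSubgroup
    (hBV : ∀ b ∈ B, b ∈ V)
    (hfrob : ∀ b ∈ B, σ b - b ^ q ∈ V.nonunits)
    (hIF : ∀ x ∈ V, ∃ s ∈ B, s ∉ V.nonunits ∧ s * x ∈ B) :
    σ ∈ V.decompositionSubgroup K := by
  rw [MulAction.mem_stabilizer_iff]
  ext x
  rw [ValuationSubring.mem_pointwise_smul_iff_inv_smul_mem]
  have hinv : σ⁻¹ • x = σ.symm x := rfl
  rw [hinv]
  constructor
  · intro h
    have := apply_mem B V σ q hBV hfrob hIF h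
    rwa [AlgEquiv.apply_symm_apply] at this
  · intro h
    obtain ⟨k, hk⟩ := exists_pow_apply_eq_symm_apply σ x
    rw [← hk]
    exact pow_apply_mem B V σ q hBV hfrob hIF k h

/-- **Glue lemma.** Let `B` be a subring of `L` contained in the valuation subring `V`, such
that every element of `V` is a fraction `b / s` with `b, s ∈ B` and `s` a unit of `V`.
If `σ b ≡ b ^ q` modulo the maximal ideal of `V` for all `b ∈ B`, then `σ` is a Frobenius
element at `V`. -/
theorem isFrobeniusAt_of_subring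
    (hBV : ∀ b ∈ B, b ∈ V)
    (hfrob : ∀ b ∈ B, σ b - b ^ q ∈ V.nonunits)
    (hIF : ∀ x ∈ V, ∃ s ∈ B, s ∉ V.nonunits ∧ s * x ∈ B) :
    V.IsFrobeniusAt σ q := by
  refine ⟨mem_decompositionSubgroup B V σ q hBV hfrob hIF, ?_⟩
  intro x
  obtain ⟨a, rfl⟩ := IsLocalRing.residue_surjective x
  rw [← IsLocalRing.ResidueField.residue_smul, ← map_pow]
  rw [← sub_eq_zero, ← map_sub, IsLocalRing.residue_eq_zero_iff,
    ValuationSubring.valuation_lt_one_iff]
  have h := apply_sub_pow_mem_nonunits B V σ q hBV hfrob hIF a.2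
  exact V.mem_nonunits_iff.mp h

end Glue

section Assembly

universe u

/-- **Assembly.** Let `B` be a subring of `L`, `Q` a proper ideal of `B` containing `ℓ`, and `σ`
an automorphism with `σ b ≡ b ^ ℓ` modulo `Q` for all `b ∈ B`.  If every valuation subring `V ⊇ B`
is a localisation of `B` (hypothesis `hIF`), then there is a valuation subring over `ℓ` at which
`σ` is a Frobenius element. -/
theorem exists_liesOverPrime_isFrobeniusAt {K : Type*} {L : Type u} [Field K] [Field L]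
    [Algebra K L] [Algebra.IsAlgebraic K L] (B : Subring L) (Q : Ideal B) (hQ : Q ≠ ⊤) (ℓ : ℕ)
    (hℓ : (ℓ : B) ∈ Q) (σ : L ≃ₐ[K] L)
    (hfrob : ∀ b : B, ∃ c ∈ Q, (c : L) = σ (b : L) - (b : L) ^ ℓ)
    (hIF : ∀ V : ValuationSubring L, B ≤ V.toSubring →
      ∀ x ∈ V, ∃ s ∈ B, s ∉ V.nonunits ∧ s * x ∈ B) :
    ∃ A : ValuationSubring L, A.LiesOverPrime ℓ ∧ A.IsFrobeniusAt σ ℓ := by
  obtain ⟨V, hBV, hQV⟩ := Q.image_subset_nonunits_valuationSubring hQ
  refine ⟨V, ?_, ?_⟩
  · have : B.subtype (ℓ : B) ∈ V.nonunits := hQV ⟨_, hℓ, rfl⟩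
    simpa [ValuationSubring.LiesOverPrime] using this
  · refine isFrobeniusAt_of_subring B V σ ℓ (fun b hb => hBV hb) ?_ (hIF V hBV)
    intro b hb
    obtain ⟨c, hc, hcb⟩ := hfrob ⟨b, hb⟩
    have : B.subtype c ∈ V.nonunits := hQV ⟨_, hc, rfl⟩
    rw [Subring.subtype_apply, hcb] at this
    exact this

end Assembly

end Fermat.Agent.Lib.FrobGlueSubring
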