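/-
Existence of Frobenius elements in `Gal(ℚ̄/ℚ)` in the valuation-subring formalism of the Prelude
(`ValuationSubring.LiesOverPrime`, `ValuationSubring.IsFrobeniusAt`).

Main result: `Fermat.Agent.Lib.Frobenius.exists_isFrobeniusAt`.
Owner: helper54.
-/
import Mathlib
import Fermat.Prelude.Def_EllipticCurve_FrobeniusTrace

set_option autoImplicit false
set_option linter.style.haveILetI false
set_option linter.unusedSectionVars false

namespace Fermat.Agent.Lib.Frobenius

open Polynomial

/-- Kaplansky's `u, u⁻¹` lemma: over a local integrally closed domain `R` with fraction field `K`,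
an element `u : K` which is a root of a polynomial over `R` having a unit coefficient satisfies
`u ∈ R` or `u⁻¹ ∈ R`. -/
theorem exists_algebraMap_eq_or_inv_of_isUnit_coeff {R K : Type*} [CommRing R] [IsDomain R]
    [IsLocalRing R] [IsIntegrallyClosed R] [Field K] [Algebra R K] [IsFractionRing R K]
    (u : K) (p : R[X]) (hp : aeval u p = 0) (i : ℕ) (hi : IsUnit (p.coeff i)) :
    (∃ r : R, algebraMap R K r = u) ∨ (∃ r : R, algebraMap R K r = u⁻¹) := by
  induction' hn : p.natDegree using Nat.strong_induction_on with n ih generalizing p i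
  have hinj : Function.Injective (algebraMap R K) := IsFractionRing.injective R K
  have hp0 : p ≠ 0 := by
    rintro rfl
    simp at hi
  by_cases hlc : IsUnit p.leadingCoeff
  · -- `u` is integral
    left
    have hint : IsIntegral R u := by
      obtain ⟨c, hc⟩ := hlc
      refine ⟨C (↑c⁻¹ : R) * p, ?_, ?_⟩
      · rw [Monic, leadingCoeff_mul, leadingCoeff_C, ← hc, Units.inv_mul]
      · rw [← aeval_def, map_mul, hp, mul_zero]
    exact IsIntegrallyClosed.algebraMap_eq_of_integral hint
  · -- leading coefficient is not a unit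
    have hin : i ≠ n := by
      rintro rfl
      rw [← hn] at hi
      exact hlc hi
    have hile : i ≤ n := by
      rw [← hn]
      exact le_natDegree_of_ne_zero hi.ne_zero
    have hilt : i < n := lt_of_le_of_ne hile hin
    have hn0 : n ≠ 0 := by omega
    obtain ⟨b, hb⟩ : ∃ b : R, algebraMap R K b = p.leadingCoeff • u :=
      IsIntegrallyClosed.algebraMap_eq_of_integral (isIntegral_leadingCoeff_smul p u hp)
    set p' : R[X] := p.eraseLead + C b * X ^ (n - 1) with hp'
    have hdeg' : p'.natDegree < n := by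
      have h1 : p.eraseLead.natDegree ≤ n - 1 := by
        rw [← hn]; exact eraseLead_natDegree_le p
      have h2 : (C b * X ^ (n - 1)).natDegree ≤ n - 1 := natDegree_C_mul_X_pow_le b (n - 1)
      have h3 : p'.natDegree ≤ n - 1 := natDegree_add_le_of_degree_le h1 h2
      omega
    have haeval' : aeval u p' = 0 := by
      have h1 : aeval u p.eraseLead = - (algebraMap R K p.leadingCoeff * u ^ n) := by
        have := congrArg (aeval u) (eraseLead_add_C_mul_X_pow p)
        rw [map_add, hp, map_mul, aeval_C, map_pow, aeval_X, hn] at this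
        exact eq_neg_of_add_eq_zero_left this
      rw [hp', map_add, map_mul, aeval_C, map_pow, aeval_X, h1, hb, Algebra.smul_def]
      have : u ^ n = u * u ^ (n - 1) := by
        rw [← pow_succ']; congr 1; omega
      rw [this]; ring
    have hcoeff' : ∀ j, j < n → p'.coeff j = p.coeff j + if j = n - 1 then b else 0 := by
      intro j hj
      rw [hp', coeff_add, coeff_C_mul, coeff_X_pow, eraseLead_coeff_of_ne]
      · split_ifs <;> simp
      · rw [hn]; omega
    by_cases hi' : i = n - 1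
    · by_cases hu : IsUnit (p'.coeff i)
      · exact ih _ hdeg' p' haeval' i hu rfl
      · -- then `b` is a unit
        rw [hcoeff' i hilt, if_pos hi'] at hu
        have hbu : IsUnit b := by
          have h1 : IsUnit ((p.coeff i + b) + (-b)) := by simpa using hi
          rcases IsLocalRing.isUnit_or_isUnit_of_isUnit_add h1 with h | h
          · exact absurd h hu
          · simpa using h
        right
        obtain ⟨c, rfl⟩ := hbu
        refine ⟨p.leadingCoeff * ↑c⁻¹, ?_⟩
        have hc0 : algebraMap R K (c : R) ≠ 0 := by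
          rw [Ne, map_eq_zero_iff _ hinj]; exact c.ne_zero
        have hu0 : u ≠ 0 := by
          rintro rfl
          rw [smul_zero] at hb
          exact hc0 hb
        rw [Algebra.smul_def] at hb
        have h3 : algebraMap R K (↑c⁻¹ : R) * algebraMap R K (c : R) = 1 := by
          rw [← map_mul, Units.inv_mul, map_one]
        rw [map_mul]
        refine eq_inv_of_mul_eq_one_left ?_
        calc algebraMap R K p.leadingCoeff * algebraMap R K (↑c⁻¹ : R) * u
            = algebraMap R K (↑c⁻¹ : R) * (algebraMap R K p.leadingCoeff * u) := by ring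
          _ = 1 := by rw [← hb, h3]
    · have hu : IsUnit (p'.coeff i) := by
        rw [hcoeff' i hilt, if_neg hi', add_zero]; exact hi
      exact ih _ hdeg' p' haeval' i hu rfl

end Fermat.Agent.Lib.Frobenius

namespace Fermat.Agent.Lib.Frobenius

open Polynomial

/-- The localization of an integrally closed domain `B` at a prime `Q`, seen inside the fraction
field `K`, contains `u` or `u⁻¹` as soon as `u` is a root of a polynomial over `B` with a
coefficient outside `Q`. -/
theorem mem_ofField_or_inv_mem {B K : Type*} [CommRing B] [IsDomain B] [IsIntegrallyClosed B]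
    [Field K] [Algebra B K] [IsFractionRing B K] (Q : Ideal B) [Q.IsPrime]
    (u : K) (p : B[X]) (hp : aeval u p = 0) (i : ℕ) (hi : p.coeff i ∉ Q) :
    u ∈ Localization.subalgebra.ofField K Q.primeCompl Q.primeCompl_le_nonZeroDivisors ∨
    u⁻¹ ∈ Localization.subalgebra.ofField K Q.primeCompl Q.primeCompl_le_nonZeroDivisors := by
  set R := Localization.subalgebra.ofField K Q.primeCompl Q.primeCompl_le_nonZeroDivisors with hR
  haveI : IsLocalization.AtPrime R Q := by
    rw [hR]; infer_instance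
  haveI : IsLocalRing R := IsLocalization.AtPrime.isLocalRing R Q
  haveI : IsIntegrallyClosed R :=
    isIntegrallyClosed_of_isLocalization R Q.primeCompl Q.primeCompl_le_nonZeroDivisors
  haveI : IsFractionRing R K := by
    rw [hR]; infer_instance
  have hu : IsUnit ((p.map (algebraMap B R)).coeff i) := by
    rw [coeff_map]
    exact IsLocalization.map_units R (⟨p.coeff i, hi⟩ : Q.primeCompl)
  have hp' : aeval u (p.map (algebraMap B R)) = 0 := by
    rw [aeval_map_algebraMap, hp]
  rcases exists_algebraMap_eq_or_inv_of_isUnit_coeff u _ hp' i hu with ⟨r, hr⟩ | ⟨r, hr⟩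
  · left; rw [← hr]; exact r.2
  · right; rw [← hr]; exact r.2

end Fermat.Agent.Lib.Frobenius

namespace Fermat.Agent.Lib.Frobenius

open Polynomial

variable {K : Type*} [Field K] [Algebra ℚ K] [Algebra.IsAlgebraic ℚ K]

theorem exists_int_polynomial (u : K) (ℓ : ℕ) (hℓ : ℓ.Prime) :
    ∃ p : ℤ[X], aeval u p = 0 ∧ ∃ i, ¬ (ℓ : ℤ) ∣ p.coeff i := by
  haveI : CharZero K := algebraRat.charZero K
  have halg : IsAlgebraic ℤ u :=
    ((IsFractionRing.comap_isAlgebraic_iff (A := ℤ) (K := ℚ) (C := K)).mpr inferInstance).isAlgebraic u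
  obtain ⟨p₁, hp₁, hp₁u⟩ := halg
  refine ⟨p₁.primPart, ?_, ?_⟩
  · have h := congrArg (aeval u) p₁.eq_C_content_mul_primPart
    rw [hp₁u, map_mul, aeval_C] at h
    have hc : algebraMap ℤ K p₁.content ≠ 0 := by
      rw [Ne, eq_intCast, Int.cast_eq_zero, content_eq_zero_iff]; exact hp₁
    exact (mul_eq_zero.mp h.symm).resolve_left hc
  · by_contra hcon
    push Not at hcon
    have hdvd : C (ℓ : ℤ) ∣ p₁.primPart := (C_dvd_iff_dvd_coeff _ _).mpr hcon
    have hunit := p₁.isPrimitive_primPart _ hdvd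
    rw [Int.isUnit_iff] at hunit
    have := hℓ.one_lt
    omega

end Fermat.Agent.Lib.Frobenius

namespace Fermat.Agent.Lib.Frobenius

open scoped Pointwise

variable {K : Type*} [Field K] [Algebra ℚ K] [IsGalois ℚ K]

theorem isInvariant_integralClosure :
    Algebra.IsInvariant ℤ (integralClosure ℤ K) (K ≃ₐ[ℚ] K) := by
  refine ⟨fun b hb => ?_⟩
  have hmem : (b : K) ∈ (⊥ : IntermediateField ℚ K) := by
    rw [← InfiniteGalois.fixedField_fixingSubgroup (⊥ : IntermediateField ℚ K)]
    rintro ⟨g, -⟩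
    exact congrArg Subtype.val (hb g)
  rw [IntermediateField.mem_bot] at hmem
  obtain ⟨q, hq⟩ := hmem
  have hint : IsIntegral ℤ q := by
    have h1 : IsIntegral ℤ (algebraMap ℚ K q) := hq ▸ b.2
    exact (isIntegral_algebraMap_iff (algebraMap ℚ K).injective).mp h1
  obtain ⟨a, ha⟩ := IsIntegrallyClosed.algebraMap_eq_of_integral hint
  refine ⟨a, Subtype.ext ?_⟩
  rw [← hq, ← ha]
  simp

end Fermat.Agent.Lib.Frobenius

namespace Fermat.Agent.Lib.Frobenius

open scoped Pointwise

variable {K : Type*} [Field K] [Algebra ℚ K] [IsGalois ℚ K]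

attribute [local instance] Ideal.Quotient.field in
theorem exists_frob_integralClosure (ℓ : ℕ) (hℓ : ℓ.Prime) :
    ∃ (Q : Ideal (integralClosure ℤ K)) (_ : Q.IsPrime) (σ : K ≃ₐ[ℚ] K),
      ((ℓ : ℤ) : integralClosure ℤ K) ∈ Q ∧ σ • Q = Q ∧
        ∀ b : integralClosure ℤ K, σ • b - b ^ ℓ ∈ Q := by
  haveI : Fact ℓ.Prime := ⟨hℓ⟩
  haveI : CharZero K := algebraRat.charZero K
  let P : Ideal ℤ := Ideal.span {(ℓ : ℤ)}
  haveI : P.IsMaximal := Int.ideal_span_isMaximal_of_prime ℓ
  obtain ⟨Q, hQmax, hQP⟩ :=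
    Ideal.exists_maximal_ideal_liesOver_of_isIntegral (S := integralClosure ℤ K) P
  -- topology
  letI : TopologicalSpace (integralClosure ℤ K) := ⊥
  haveI : DiscreteTopology (integralClosure ℤ K) := ⟨rfl⟩
  haveI : ContinuousSMul (K ≃ₐ[ℚ] K) (integralClosure ℤ K) := by
    rw [continuousSMul_iff_stabilizer_isOpen]
    intro b
    convert stabilizer_isOpen_of_isIntegral (K := ℚ) (L := K) (b : K) using 1
    ext g
    simp [MulAction.mem_stabilizer_iff, Subtype.ext_iff]
  haveI : Algebra.IsInvariant ℤ (integralClosure ℤ K) (K ≃ₐ[ℚ] K) := isInvariant_integralClosure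
  -- the residue field of `P`
  let e : ℤ ⧸ P ≃+* ZMod ℓ := Int.quotientSpanNatEquivZMod ℓ
  haveI : Finite (ℤ ⧸ P) := Finite.of_equiv _ e.symm.toEquiv
  letI : Fintype (ℤ ⧸ P) := Fintype.ofFinite _
  have hcard : Fintype.card (ℤ ⧸ P) = ℓ := by
    rw [Fintype.card_congr e.toEquiv, ZMod.card]
  let frob := FiniteField.frobeniusAlgEquivOfAlgebraic (ℤ ⧸ P) (integralClosure ℤ K ⧸ Q)
  obtain ⟨σ, hσ⟩ := Ideal.Quotient.stabilizerHom_surjective_of_profinite
    (G := K ≃ₐ[ℚ] K) P Q frob
  refine ⟨Q, inferInstance, σ.1, ?_, σ.2, fun b => ?_⟩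
  · have h0 := (Ideal.mem_of_liesOver Q P (ℓ : ℤ)).mp (Ideal.subset_span rfl)
    rwa [eq_intCast] at h0
  · have h1 := DFunLike.congr_fun hσ (Ideal.Quotient.mk Q b)
    rw [Ideal.Quotient.stabilizerHom_apply, FiniteField.coe_frobeniusAlgEquivOfAlgebraic, hcard] at h1
    change _ = (Ideal.Quotient.mk Q b) ^ ℓ at h1
    rw [← map_pow, Ideal.Quotient.eq] at h1
    exact h1

end Fermat.Agent.Lib.Frobenius

namespace Fermat.Agent.Lib.Frobenius

open scoped Pointwise
open Polynomial

variable {K : Type*} [Field K] [Algebra ℚ K] [Algebra.IsAlgebraic ℚ K]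

/-- The localization of the ring of algebraic integers of `K` at a prime `Q` above `ℓ` is a
valuation subring of `K`. -/
theorem exists_valuationSubring (Q : Ideal (integralClosure ℤ K)) [Q.IsPrime] (ℓ : ℕ)
    (hℓ : ℓ.Prime) (hQ : ((ℓ : ℤ) : integralClosure ℤ K) ∈ Q) :
    ∃ A : ValuationSubring K, ∀ x : K, x ∈ A ↔
      ∃ a s : integralClosure ℤ K, s ∉ Q ∧ x = (a : K) * (s : K)⁻¹ := by
  haveI : CharZero K := algebraRat.charZero K
  haveI : Algebra.IsAlgebraic ℤ K :=
    (IsFractionRing.comap_isAlgebraic_iff (A := ℤ) (K := ℚ) (C := K)).mpr inferInstance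
  haveI : IsFractionRing (integralClosure ℤ K) K :=
    integralClosure.isFractionRing_of_algebraic (A := ℤ) (L := K)
      (fun x hx => by simpa using hx)
  haveI : IsIntegrallyClosed (integralClosure ℤ K) :=
    (IsIntegrallyClosed.integralClosure_eq_bot_iff K).mp integralClosure_idem
  let R := Localization.subalgebra.ofField K Q.primeCompl Q.primeCompl_le_nonZeroDivisors
  have hR : ∀ u : K, u ∈ R.toSubring ∨ u⁻¹ ∈ R.toSubring := by
    intro u
    obtain ⟨p, hp, i, hi⟩ := exists_int_polynomial u ℓ hℓ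
    refine mem_ofField_or_inv_mem Q u (p.map (algebraMap ℤ (integralClosure ℤ K))) ?_ i ?_
    · rw [aeval_map_algebraMap, hp]
    · rw [coeff_map, eq_intCast]
      intro hmem
      have hcop : IsCoprime (p.coeff i) (ℓ : ℤ) := by
        rw [isCoprime_comm]
        exact (Prime.coprime_iff_not_dvd (Nat.prime_iff_prime_int.mp hℓ)).mpr hi
      obtain ⟨x, y, hxy⟩ := hcop
      have h1 : ((x * p.coeff i + y * (ℓ : ℤ) : ℤ) : integralClosure ℤ K) ∈ Q := by
        push_cast
        exact Q.add_mem (Q.mul_mem_left _ hmem) (Q.mul_mem_left _ (by simpa using hQ))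
      rw [hxy, Int.cast_one] at h1
      exact (Ideal.IsPrime.ne_top inferInstance) ((Ideal.eq_top_iff_one Q).mpr h1)
  refine ⟨ValuationSubring.ofSubring R.toSubring hR, fun x => ?_⟩
  rw [ValuationSubring.mem_ofSubring]
  constructor
  · rintro ⟨a, s, hs, rfl⟩
    exact ⟨a, s, hs, rfl⟩
  · rintro ⟨a, s, hs, rfl⟩
    exact ⟨a, s, hs, rfl⟩

end Fermat.Agent.Lib.Frobenius

namespace Fermat.Agent.Lib.Frobenius

open scoped Pointwise
open Polynomial

variable {K : Type*} [Field K] [Algebra ℚ K]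

section

variable (A : ValuationSubring K) (Q : Ideal (integralClosure ℤ K)) [Q.IsPrime]
  (hA : ∀ x : K, x ∈ A ↔ ∃ a s : integralClosure ℤ K, s ∉ Q ∧ x = (a : K) * (s : K)⁻¹)

include hA

theorem coe_mem_of_fractions (b : integralClosure ℤ K) : (b : K) ∈ A :=
  (hA _).mpr ⟨b, 1, fun h => Ideal.IsPrime.ne_top inferInstance ((Ideal.eq_top_iff_one Q).mpr h),
    by simp⟩

theorem inv_mem_of_fractions (s : integralClosure ℤ K) (hs : s ∉ Q) : ((s : K))⁻¹ ∈ A :=
  (hA _).mpr ⟨1, s, hs, by simp⟩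

theorem coe_mem_nonunits_of_fractions (q : integralClosure ℤ K) (hq : q ∈ Q) :
    (q : K) ∈ A.nonunits := by
  rw [ValuationSubring.mem_nonunits_iff_or]
  by_cases h0 : (q : K) = 0
  · exact Or.inl h0
  · right
    intro hmem
    obtain ⟨a, s, hs, h⟩ := (hA _).mp hmem
    apply hs
    have hs0 : (s : K) ≠ 0 := by
      intro h'
      apply hs
      have : s = 0 := Subtype.ext h'
      rw [this]; exact Q.zero_mem
    have : s = q * a := by
      apply Subtype.ext
      push_cast
      have h2 : ((q : K))⁻¹ * (s : K) = (a : K) := (eq_mul_inv_iff_mul_eq₀ hs0).mp h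
      rw [← h2, mul_inv_cancel_left₀ h0]
    rw [this]
    exact Q.mul_mem_right _ hq

theorem smul_mem_of_fractions (τ : K ≃ₐ[ℚ] K) (hτ : τ • Q = Q) (x : K) (hx : x ∈ A) :
    τ x ∈ A := by
  obtain ⟨a, s, hs, rfl⟩ := (hA _).mp hx
  refine (hA _).mpr ⟨τ • a, τ • s, ?_, ?_⟩
  · rw [← hτ, Ideal.smul_mem_pointwise_smul_iff]
    exact hs
  · rw [map_mul, map_inv₀]
    rfl

theorem mem_decompositionSubgroup_of_fractions (σ : K ≃ₐ[ℚ] K) (hσQ : σ • Q = Q) :
    σ ∈ A.decompositionSubgroup ℚ := by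
  rw [MulAction.mem_stabilizer_iff]
  apply le_antisymm
  · intro x hx
    obtain ⟨y, hy, rfl⟩ := (ValuationSubring.mem_smul_pointwise_iff_exists _ _ _).mp hx
    exact smul_mem_of_fractions A Q hA σ hσQ y hy
  · intro x hx
    rw [ValuationSubring.mem_pointwise_smul_iff_inv_smul_mem]
    have hinv : σ⁻¹ • Q = Q := by rw [inv_smul_eq_iff, hσQ]
    exact smul_mem_of_fractions A Q hA σ⁻¹ hinv x hx

end

end Fermat.Agent.Lib.Frobenius

namespace Fermat.Agent.Lib.Frobenius

open scoped Pointwise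
open Polynomial

variable {K : Type*} [Field K] [Algebra ℚ K]

theorem isFrobeniusAt_of_fractions (A : ValuationSubring K) (Q : Ideal (integralClosure ℤ K))
    [Q.IsPrime]
    (hA : ∀ x : K, x ∈ A ↔ ∃ a s : integralClosure ℤ K, s ∉ Q ∧ x = (a : K) * (s : K)⁻¹)
    (ℓ : ℕ) (σ : K ≃ₐ[ℚ] K) (hσQ : σ • Q = Q)
    (hσ : ∀ b : integralClosure ℤ K, σ • b - b ^ ℓ ∈ Q) :
    A.IsFrobeniusAt σ ℓ := by
  have hσA : σ ∈ A.decompositionSubgroup ℚ := mem_decompositionSubgroup_of_fractions A Q hA σ hσQ
  refine ⟨hσA, fun x => ?_⟩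
  obtain ⟨⟨x, hx⟩, rfl⟩ := IsLocalRing.residue_surjective x
  rw [← IsLocalRing.ResidueField.residue_smul, ← map_pow]
  -- the inclusion of the integers in `A`
  let ι : integralClosure ℤ K →+* A :=
    ((integralClosure ℤ K).val : integralClosure ℤ K →+* K).codRestrict A
      (fun b => coe_mem_of_fractions A Q hA b)
  have hι : ∀ b, ((ι b : A) : K) = (b : K) := fun b => rfl
  let r : integralClosure ℤ K →+* IsLocalRing.ResidueField A := (IsLocalRing.residue A).comp ι
  have hrQ : ∀ q ∈ Q, r q = 0 := by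
    intro q hq
    change IsLocalRing.residue A (ι q) = 0
    rw [IsLocalRing.residue_eq_zero_iff, ← ValuationSubring.coe_mem_nonunits_iff, hι]
    exact coe_mem_nonunits_of_fractions A Q hA q hq
  have hrs : ∀ s, s ∉ Q → r s ≠ 0 := by
    intro s hs
    have hs0 : (s : K) ≠ 0 := by
      intro h'
      apply hs
      have : s = 0 := Subtype.ext h'
      rw [this]; exact Q.zero_mem
    have hunit : IsUnit (ι s) := by
      refine IsUnit.of_mul_eq_one (⟨(s : K)⁻¹, inv_mem_of_fractions A Q hA s hs⟩ : A) ?_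
      apply Subtype.ext
      change (s : K) * (s : K)⁻¹ = 1
      exact mul_inv_cancel₀ hs0
    exact (hunit.map (IsLocalRing.residue A)).ne_zero
  have hrσ : ∀ b, r (σ • b) = r b ^ ℓ := by
    intro b
    rw [← map_pow, ← sub_eq_zero, ← map_sub]
    exact hrQ _ (hσ b)
  obtain ⟨a, s, hs, rfl⟩ := (hA _).mp hx
  have hs0 : (s : K) ≠ 0 := by
    intro h'
    apply hs
    have : s = 0 := Subtype.ext h'
    rw [this]; exact Q.zero_mem
  set y : A := ⟨(a : K) * (s : K)⁻¹, hx⟩ with hy
  set σ' : A.decompositionSubgroup ℚ := ⟨σ, hσA⟩ with hσ'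
  have h1 : y * ι s = ι a := by
    apply Subtype.ext
    change (a : K) * (s : K)⁻¹ * (s : K) = (a : K)
    rw [inv_mul_cancel_right₀ hs0]
  have h2 : ∀ b, σ' • ι b = ι (σ • b) := fun b => rfl
  have h3 : (σ' • y) * ι (σ • s) = ι (σ • a) := by
    rw [← h2, ← h2, ← smul_mul', h1]
  have h4 : IsLocalRing.residue A (σ' • y) * r s ^ ℓ = (IsLocalRing.residue A y) ^ ℓ * r s ^ ℓ := by
    have e1 : IsLocalRing.residue A (σ' • y) * r (σ • s) = r a ^ ℓ := by
      change IsLocalRing.residue A (σ' • y) * IsLocalRing.residue A (ι (σ • s)) = r a ^ ℓ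
      rw [← map_mul, h3]
      exact hrσ a
    have e2 : (IsLocalRing.residue A y) ^ ℓ * r s ^ ℓ = r a ^ ℓ := by
      rw [← mul_pow]
      change (IsLocalRing.residue A y * IsLocalRing.residue A (ι s)) ^ ℓ = r a ^ ℓ
      rw [← map_mul, h1]
      rfl
    rw [e2, ← hrσ s, e1]
  rw [map_pow]
  exact mul_right_cancel₀ (pow_ne_zero ℓ (hrs s hs)) h4

end Fermat.Agent.Lib.Frobenius

namespace Fermat.Agent.Lib.Frobenius

/-- Frobenius elements exist at every prime, for any Galois extension `K/ℚ`. -/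
theorem exists_isFrobeniusAt_of_isGalois {K : Type*} [Field K] [Algebra ℚ K] [IsGalois ℚ K]
    (ℓ : ℕ) (hℓ : ℓ.Prime) :
    ∃ (A : ValuationSubring K) (σ : K ≃ₐ[ℚ] K), A.LiesOverPrime ℓ ∧ A.IsFrobeniusAt σ ℓ := by
  obtain ⟨Q, hQ, σ, hℓQ, hσQ, hσ⟩ := exists_frob_integralClosure (K := K) ℓ hℓ
  obtain ⟨A, hA⟩ := exists_valuationSubring Q ℓ hℓ hℓQ
  refine ⟨A, σ, ?_, isFrobeniusAt_of_fractions A Q hA ℓ σ hσQ hσ⟩
  have h := coe_mem_nonunits_of_fractions A Q hA _ hℓQ
  unfold ValuationSubring.LiesOverPrime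
  simpa using h

theorem isGalois_algebraicClosure_rat : IsGalois ℚ (AlgebraicClosure ℚ) := by
  have h : (DivisionRing.toRatAlgebra : Algebra ℚ (AlgebraicClosure ℚ)) =
      AlgebraicClosure.instAlgebra ℚ := Subsingleton.elim _ _
  rw [h]
  infer_instance

/-- Frobenius elements exist at every prime `ℓ` in the absolute Galois group of `ℚ`. -/
theorem exists_isFrobeniusAt (ℓ : ℕ) (hℓ : ℓ.Prime) :
    ∃ (A : ValuationSubring (AlgebraicClosure ℚ))
      (σ : AlgebraicClosure ℚ ≃ₐ[ℚ] AlgebraicClosure ℚ),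
      A.LiesOverPrime ℓ ∧ A.IsFrobeniusAt σ ℓ := by
  haveI : IsGalois ℚ (AlgebraicClosure ℚ) := isGalois_algebraicClosure_rat
  exact exists_isFrobeniusAt_of_isGalois ℓ hℓ

end Fermat.Agent.Lib.Frobenius
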