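import Mathlib
import Fermat.Prelude.Def_FLTPrelim_Ramification
import Fermat.Prelude.Def_EllipticCurve_FrobeniusTrace
import Fermat.Agent.Lib.FrobGlue
import Fermat.Agent.Lib.FrobeniusIF

/-!
# Inertia and decomposition groups of valuation subrings of an infinite Galois extension of `ℚ`
versus a closed normal subgroup (= a finite or infinite Galois subextension)

`L/ℚ` is a Galois extension (typically `L = AlgebraicClosure ℚ`), `G = Gal(L/ℚ)`,
`S = integralClosure ℤ L`, `A` a valuation subring of `L`, `H ≤ G` a closed normal subgroup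
(think `H = Gal(L/M)` for a Galois subextension `M/ℚ`).

Main results (namespace `Fermat.Agent.Lib.InertiaBridge`):

* `exists_mem_decompositionSubgroup_mul_mem`: if `τ : G` preserves `𝔪_A ∩ S^H`
  (i.e. `τ|_M` lies in the decomposition group of the prime of `M` below `A`), then some
  `σ` in the decomposition group of `A` has `τ⁻¹ * σ ∈ H` (i.e. `σ|_M = τ|_M`).
* `exists_mem_inertiaSubgroupIn_mul_mem`: if `τ b - b ∈ 𝔪_A` for all `b ∈ S^H`
  (i.e. `τ|_M` lies in the inertia group of the prime of `M` below `A`), then some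
  `σ ∈ A.inertiaSubgroupIn ℚ` has `τ⁻¹ * σ ∈ H`.
-/

set_option autoImplicit false

namespace Fermat.Agent.Lib.InertiaBridge

open scoped Pointwise

section Glue

variable {K L : Type*} [Field K] [Field L] [Algebra K L]

/-- A "Frobenius element with exponent `1`" is an element of the inertia group. -/
theorem mem_inertiaSubgroupIn_of_isFrobeniusAt_one {A : ValuationSubring L} {σ : L ≃ₐ[K] L}
    (h : A.IsFrobeniusAt σ 1) : σ ∈ A.inertiaSubgroupIn K := by
  obtain ⟨hσ, hx⟩ := h
  refine ⟨⟨σ, hσ⟩, MonoidHom.mem_ker.mpr ?_, rfl⟩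
  ext x
  simpa using hx x

/-- Elements of the inertia group are "Frobenius elements with exponent `1`". -/
theorem isFrobeniusAt_one_of_mem_inertiaSubgroupIn {A : ValuationSubring L} {σ : L ≃ₐ[K] L}
    (h : σ ∈ A.inertiaSubgroupIn K) : A.IsFrobeniusAt σ 1 := by
  obtain ⟨τ, hτ, rfl⟩ := h
  refine ⟨τ.2, fun x => ?_⟩
  have hτ' := MonoidHom.mem_ker.mp hτ
  have := congrArg (fun f : RingAut (IsLocalRing.ResidueField A) => f x) hτ'
  simpa using this

end Glue

section PrimeOf

variable {L : Type*} [Field L]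

/-- Algebraic integers lie in every valuation subring. -/
theorem coe_mem (A : ValuationSubring L) (b : integralClosure ℤ L) : (b : L) ∈ A :=
  FrobeniusIF.mem_of_isIntegral_int A b.2

/-- The prime ideal of the ring of algebraic integers of `L` cut out by the maximal ideal of the
valuation subring `A`. -/
def primeOf (A : ValuationSubring L) : Ideal (integralClosure ℤ L) where
  carrier := {b | (b : L) ∈ A.nonunits}
  add_mem' {a b} ha hb := by
    simp only [Set.mem_ofPred_eq, ValuationSubring.mem_nonunits_iff] at ha hb ⊢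
    exact Valuation.map_add_lt _ ha hb
  zero_mem' := by
    simp only [Set.mem_ofPred_eq, ValuationSubring.mem_nonunits_iff]
    simp
  smul_mem' c x hx := by
    simp only [Set.mem_ofPred_eq] at hx ⊢
    have : ((c • x : integralClosure ℤ L) : L) = (x : L) * (c : L) := by
      simp [mul_comm]
    rw [this]
    exact FrobeniusIF.mul_mem_nonunits A hx (coe_mem A c)

theorem mem_primeOf {A : ValuationSubring L} {b : integralClosure ℤ L} :
    b ∈ primeOf A ↔ (b : L) ∈ A.nonunits := Iff.rfl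

instance primeOf_isPrime (A : ValuationSubring L) : (primeOf A).IsPrime := by
  refine ⟨?_, ?_⟩
  · intro h
    have h1 : (1 : integralClosure ℤ L) ∈ primeOf A := by rw [h]; trivial
    rw [mem_primeOf, ValuationSubring.mem_nonunits_iff] at h1
    simp at h1
  · intro x y hxy
    rw [mem_primeOf, ValuationSubring.mem_nonunits_iff] at hxy
    by_contra hcon
    push Not at hcon
    obtain ⟨hx, hy⟩ := hcon
    rw [mem_primeOf, ValuationSubring.mem_nonunits_iff, not_lt] at hx hy
    have hx1 : A.valuation (x : L) = 1 :=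
      le_antisymm ((A.valuation_le_one_iff _).2 (coe_mem A x)) hx
    have hy1 : A.valuation (y : L) = 1 :=
      le_antisymm ((A.valuation_le_one_iff _).2 (coe_mem A y)) hy
    have : A.valuation ((x * y : integralClosure ℤ L) : L) = 1 := by
      push_cast
      rw [map_mul, hx1, hy1, one_mul]
    rw [this] at hxy
    exact lt_irrefl _ hxy

end PrimeOf

section Stab

variable {L : Type*} [Field L] [Algebra ℚ L] [Algebra.IsAlgebraic ℚ L]

theorem isAlgebraic_int (x : L) : IsAlgebraic ℤ x :=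
  (IsFractionRing.isAlgebraic_iff ℤ ℚ L).mpr (Algebra.IsAlgebraic.isAlgebraic x)

/-- Every valuation subring of `L` is a localisation of the ring of algebraic integers. -/
theorem exists_unit_mul_mem (A : ValuationSubring L) {x : L} (hx : x ∈ A) :
    ∃ s ∈ (integralClosure ℤ L).toSubring, s ∉ A.nonunits ∧
      s * x ∈ (integralClosure ℤ L).toSubring := by
  have : CharZero L := algebraRat.charZero L
  obtain ⟨s, hs, hsA, hsx⟩ := FrobeniusIF.exists_unit_mul_isIntegral A (isAlgebraic_int x) hx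
  exact ⟨s, hs, hsA, hsx⟩

omit [Algebra.IsAlgebraic ℚ L] in
theorem mem_primeOf_smul_iff {A : ValuationSubring L} {σ : L ≃ₐ[ℚ] L}
    {b : integralClosure ℤ L} : b ∈ σ • primeOf A ↔ σ.symm (b : L) ∈ A.nonunits := by
  rw [Ideal.mem_pointwise_smul_iff_inv_smul_mem, mem_primeOf]
  rfl

/-- An automorphism stabilising the prime `primeOf A` lies in the decomposition group of `A`. -/
theorem mem_decompositionSubgroup_of_smul_primeOf {A : ValuationSubring L} {σ : L ≃ₐ[ℚ] L}
    (hσ : σ • primeOf A = primeOf A) : σ ∈ A.decompositionSubgroup ℚ := by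
  set B := (integralClosure ℤ L).toSubring with hB
  have hBV : ∀ b ∈ B, b ∈ A := fun b hb => coe_mem A ⟨b, hb⟩
  have hσB : ∀ (ρ : L ≃ₐ[ℚ] L), ∀ b ∈ B, ρ b ∈ B :=
    fun ρ b hb => (ρ • (⟨b, hb⟩ : integralClosure ℤ L)).2
  have hσ' : σ⁻¹ • primeOf A = primeOf A := by rw [inv_smul_eq_iff, hσ]
  have hQ : ∀ (ρ : L ≃ₐ[ℚ] L), ρ • primeOf A = primeOf A →
      ∀ b ∈ B, b ∈ A.nonunits → ρ b ∈ A.nonunits := by
    intro ρ hρ b hb hbA
    have h1 : (⟨b, hb⟩ : integralClosure ℤ L) ∈ primeOf A := hbA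
    have h2 : ρ • (⟨b, hb⟩ : integralClosure ℤ L) ∈ ρ • primeOf A :=
      Ideal.smul_mem_pointwise_smul _ _ _ h1
    rw [hρ] at h2
    exact h2
  obtain ⟨-, h1⟩ := FrobGlue.map_mem_of_subring A B (σ : L →+* L) (σ.symm : L →+* L)
    (fun x => by simp) hBV (hσB σ) (fun x hx => exists_unit_mul_mem A hx) (hQ σ⁻¹ hσ')
  obtain ⟨-, h2⟩ := FrobGlue.map_mem_of_subring A B (σ.symm : L →+* L) (σ : L →+* L)
    (fun x => by simp) hBV (hσB σ⁻¹) (fun x hx => exists_unit_mul_mem A hx) (hQ σ hσ)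
  exact FrobGlue.mem_decompositionSubgroup_of_forall A σ h1 h2

omit [Algebra.IsAlgebraic ℚ L] in
/-- Conversely the decomposition group of `A` stabilises `primeOf A`. -/
theorem smul_primeOf_of_mem_decompositionSubgroup {A : ValuationSubring L} {σ : L ≃ₐ[ℚ] L}
    (hσ : σ ∈ A.decompositionSubgroup ℚ) : σ • primeOf A = primeOf A := by
  have hσA : σ • A = A := MulAction.mem_stabilizer_iff.1 hσ
  have key : ∀ (ρ : L ≃ₐ[ℚ] L), ρ • A = A → ∀ x : L, x ∈ A.nonunits → ρ x ∈ A.nonunits := by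
    intro ρ hρ x hx
    rw [ValuationSubring.mem_nonunits_iff] at hx ⊢
    -- `x ∈ 𝔪_A` iff `x ∈ A` and `x⁻¹ ∉ A` (or `x = 0`)
    by_cases hx0 : x = 0
    · simp [hx0]
    have hxA : x ∈ A := (A.valuation_le_one_iff _).1 hx.le
    have hxinv : x⁻¹ ∉ A := by
      intro h
      have h1 : A.valuation x⁻¹ ≤ 1 := (A.valuation_le_one_iff _).2 h
      rw [map_inv₀] at h1
      have h2 : 1 ≤ A.valuation x := by
        have hv0 : A.valuation x ≠ 0 := (Valuation.ne_zero_iff _).2 hx0
        rwa [inv_le_one₀ (zero_lt_iff.2 hv0)] at h1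
      exact absurd hx (not_lt.2 h2)
    have hmem : ∀ y : L, y ∈ A ↔ ρ y ∈ A := by
      intro y
      constructor
      · intro hy
        have : ρ • y ∈ ρ • A := ValuationSubring.smul_mem_pointwise_smul ρ y A hy
        rwa [hρ] at this
      · intro hy
        have : ρ y ∈ ρ • A := by rwa [hρ]
        rw [ValuationSubring.mem_pointwise_smul_iff_inv_smul_mem] at this
        simpa using this
    have h1 : ρ x ∈ A := (hmem x).1 hxA
    have h2 : (ρ x)⁻¹ ∉ A := by
      rw [← map_inv₀]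
      exact fun h => hxinv ((hmem _).2 h)
    have h3 : A.valuation (ρ x) ≤ 1 := (A.valuation_le_one_iff _).2 h1
    rcases lt_or_eq_of_le h3 with h | h
    · exact h
    · exfalso
      apply h2
      rw [← A.valuation_le_one_iff, map_inv₀, h, inv_one]
  have hσA' : σ⁻¹ • A = A := by rw [inv_smul_eq_iff, hσA]
  ext b
  rw [mem_primeOf_smul_iff, mem_primeOf]
  constructor
  · intro h
    have := key σ hσA _ h
    simpa using this
  · intro h
    exact key σ⁻¹ hσA' _ h

/-- An automorphism stabilising `primeOf A` and acting trivially on the algebraic integers modulo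
`primeOf A` lies in the inertia group of `A`. -/
theorem mem_inertiaSubgroupIn_of_forall {A : ValuationSubring L} {σ : L ≃ₐ[ℚ] L}
    (hσ : σ • primeOf A = primeOf A)
    (hσ1 : ∀ b : integralClosure ℤ L, σ (b : L) - (b : L) ∈ A.nonunits) :
    σ ∈ A.inertiaSubgroupIn ℚ := by
  set B := (integralClosure ℤ L).toSubring with hB
  have hBV : ∀ b ∈ B, b ∈ A := fun b hb => coe_mem A ⟨b, hb⟩
  have hσB : ∀ (ρ : L ≃ₐ[ℚ] L), ∀ b ∈ B, ρ b ∈ B :=
    fun ρ b hb => (ρ • (⟨b, hb⟩ : integralClosure ℤ L)).2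
  have hσ' : σ⁻¹ • primeOf A = primeOf A := by rw [inv_smul_eq_iff, hσ]
  have hQ : ∀ (ρ : L ≃ₐ[ℚ] L), ρ • primeOf A = primeOf A →
      ∀ b ∈ B, b ∈ A.nonunits → ρ b ∈ A.nonunits := by
    intro ρ hρ b hb hbA
    have h1 : (⟨b, hb⟩ : integralClosure ℤ L) ∈ primeOf A := hbA
    have h2 : ρ • (⟨b, hb⟩ : integralClosure ℤ L) ∈ ρ • primeOf A :=
      Ideal.smul_mem_pointwise_smul _ _ _ h1
    rw [hρ] at h2
    exact h2
  apply mem_inertiaSubgroupIn_of_isFrobeniusAt_one
  refine FrobGlue.isFrobeniusAt_of_subring A B σ 1 hBV (hσB σ) (hσB σ⁻¹)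
    (fun x hx => exists_unit_mul_mem A hx) (hQ σ hσ) (hQ σ⁻¹ hσ') ?_
  intro b hb
  rw [pow_one]
  exact hσ1 ⟨b, hb⟩

end Stab

section Main

variable {L : Type*} [Field L] [Algebra ℚ L] [IsGalois ℚ L]

/-- The decomposition-group lifting lemma: if `τ` preserves the prime `𝔪_A ∩ S^H` of the
`H`-invariant algebraic integers (`H` a closed normal subgroup of `Gal(L/ℚ)`), then the coset
`τ H` meets the decomposition group of `A`. -/
theorem exists_mem_decompositionSubgroup_mul_mem (A : ValuationSubring L)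
    (H : Subgroup (L ≃ₐ[ℚ] L)) (hHc : IsClosed (H : Set (L ≃ₐ[ℚ] L))) [hHn : H.Normal]
    (τ : L ≃ₐ[ℚ] L)
    (hτ : ∀ b : integralClosure ℤ L, (∀ h ∈ H, h • b = b) →
      (τ (b : L) ∈ A.nonunits ↔ (b : L) ∈ A.nonunits)) :
    ∃ σ ∈ A.decompositionSubgroup ℚ, ∃ g ∈ H, σ = g * τ := by
  -- topology on the ring of integers and on `H`
  let _ : TopologicalSpace (integralClosure ℤ L) := ⊥
  have : DiscreteTopology (integralClosure ℤ L) := ⟨rfl⟩
  have : ContinuousSMul (L ≃ₐ[ℚ] L) (integralClosure ℤ L) := by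
    rw [continuousSMul_iff_stabilizer_isOpen]
    intro b
    convert stabilizer_isOpen_of_isIntegral (K := ℚ) (L := L) (b : L) using 1
    ext g
    simp [MulAction.mem_stabilizer_iff, Subtype.ext_iff]
  have : CompactSpace H := isCompact_iff_compactSpace.mp hHc.isCompact
  have : Algebra.IsInvariant (FixedPoints.subalgebra ℤ (integralClosure ℤ L) H)
      (integralClosure ℤ L) H := ⟨fun x h ↦ ⟨⟨x, h⟩, rfl⟩⟩
  -- the two primes
  have hunder : (primeOf A).under (FixedPoints.subalgebra ℤ (integralClosure ℤ L) H) =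
      (τ • primeOf A).under (FixedPoints.subalgebra ℤ (integralClosure ℤ L) H) := by
    ext a
    rw [Ideal.under_def, Ideal.under_def, Ideal.mem_comap, Ideal.mem_comap, mem_primeOf_smul_iff,
      mem_primeOf]
    have ha : ∀ h ∈ H, h • (a : integralClosure ℤ L) = a := fun h hh => a.2 ⟨h, hh⟩
    -- `τ⁻¹ a` is again `H`-invariant
    have hb : ∀ h ∈ H, h • (τ⁻¹ • (a : integralClosure ℤ L)) = τ⁻¹ • (a : integralClosure ℤ L) := by
      intro h hh
      have h1 : τ * h * τ⁻¹ ∈ H := hHn.conj_mem h hh τ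
      have h2 := ha _ h1
      calc h • (τ⁻¹ • (a : integralClosure ℤ L))
          = τ⁻¹ • ((τ * h * τ⁻¹) • (a : integralClosure ℤ L)) := by
            simp only [← mul_smul]; group
        _ = τ⁻¹ • (a : integralClosure ℤ L) := by rw [h2]
    have := hτ (τ⁻¹ • (a : integralClosure ℤ L)) hb
    have e1 : τ ((τ⁻¹ • (a : integralClosure ℤ L) : integralClosure ℤ L) : L) =
        ((a : integralClosure ℤ L) : L) := by
      change τ (τ⁻¹ ((a : integralClosure ℤ L) : L)) = _
      simp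
    rw [e1] at this
    exact this
  obtain ⟨g, hg⟩ := Algebra.IsInvariant.exists_smul_of_under_eq_of_profinite
    (A := FixedPoints.subalgebra ℤ (integralClosure ℤ L) H) (G := H)
    (τ • primeOf A) (primeOf A) hunder.symm
  refine ⟨(g : L ≃ₐ[ℚ] L) * τ, ?_, g, g.2, rfl⟩
  apply mem_decompositionSubgroup_of_smul_primeOf
  rw [mul_smul]
  exact hg.symm

set_option maxHeartbeats 800000 in
/-- The inertia-group lifting lemma: if `τ` acts trivially on the `H`-invariant algebraic integers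
modulo `𝔪_A` (`H` a closed normal subgroup of `Gal(L/ℚ)`), then the coset `τ H` meets the inertia
group of `A`. -/
theorem exists_mem_inertiaSubgroupIn_mul_mem (A : ValuationSubring L)
    (H : Subgroup (L ≃ₐ[ℚ] L)) (hHc : IsClosed (H : Set (L ≃ₐ[ℚ] L))) [hHn : H.Normal]
    (τ : L ≃ₐ[ℚ] L)
    (hτ : ∀ b : integralClosure ℤ L, (∀ h ∈ H, h • b = b) →
      τ (b : L) - (b : L) ∈ A.nonunits) :
    ∃ σ ∈ A.inertiaSubgroupIn ℚ, ∃ g ∈ H, σ = g * τ := by
  -- first step: the decomposition group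
  have hτ' : ∀ b : integralClosure ℤ L, (∀ h ∈ H, h • b = b) →
      (τ (b : L) ∈ A.nonunits ↔ (b : L) ∈ A.nonunits) := by
    intro b hb
    have h1 := hτ b hb
    constructor
    · intro h2
      have := A.nonunits.sub_mem h2 h1
      simpa using this
    · intro h2
      have := A.nonunits.add_mem h1 h2
      simpa using this
  obtain ⟨σ₁, hσ₁, g, hg, hσ₁g⟩ := exists_mem_decompositionSubgroup_mul_mem A H hHc τ hτ'
  have hσ₁Q : σ₁ • primeOf A = primeOf A := smul_primeOf_of_mem_decompositionSubgroup hσ₁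
  -- topology on the ring of integers and on `H`
  let _ : TopologicalSpace (integralClosure ℤ L) := ⊥
  have : DiscreteTopology (integralClosure ℤ L) := ⟨rfl⟩
  have : ContinuousSMul (L ≃ₐ[ℚ] L) (integralClosure ℤ L) := by
    rw [continuousSMul_iff_stabilizer_isOpen]
    intro b
    convert stabilizer_isOpen_of_isIntegral (K := ℚ) (L := L) (b : L) using 1
    ext g
    simp [MulAction.mem_stabilizer_iff, Subtype.ext_iff]
  have : CompactSpace H := isCompact_iff_compactSpace.mp hHc.isCompact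
  have : Algebra.IsInvariant (FixedPoints.subalgebra ℤ (integralClosure ℤ L) H)
      (integralClosure ℤ L) H := ⟨fun x h ↦ ⟨⟨x, h⟩, rfl⟩⟩
  -- `σ₁` acts trivially on the `H`-invariants modulo `primeOf A`
  have hσ₁a : ∀ a : FixedPoints.subalgebra ℤ (integralClosure ℤ L) H,
      σ₁ • (a : integralClosure ℤ L) - (a : integralClosure ℤ L) ∈ primeOf A := by
    intro a
    have ha : ∀ h ∈ H, h • (a : integralClosure ℤ L) = a := fun h hh => a.2 ⟨h, hh⟩
    -- `τ a` is `H`-invariant
    have hb : g • (τ • (a : integralClosure ℤ L)) = τ • (a : integralClosure ℤ L) := by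
      have h1 : τ⁻¹ * g * τ⁻¹⁻¹ ∈ H := hHn.conj_mem g hg τ⁻¹
      have h2 := ha _ h1
      calc g • (τ • (a : integralClosure ℤ L))
          = τ • ((τ⁻¹ * g * τ⁻¹⁻¹) • (a : integralClosure ℤ L)) := by
            simp only [← mul_smul]; group
        _ = τ • (a : integralClosure ℤ L) := by rw [h2]
    rw [hσ₁g, mul_smul, hb, mem_primeOf]
    exact hτ a ha
  -- the automorphism of the residue field induced by `σ₁`
  let Q := primeOf A
  let P := Q.under (FixedPoints.subalgebra ℤ (integralClosure ℤ L) H)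
  let f₁ := Ideal.Quotient.stabilizerHom Q (Q.under ℤ) (L ≃ₐ[ℚ] L) ⟨σ₁, hσ₁Q⟩
  have hf₁ : ∀ b : integralClosure ℤ L,
      f₁ (Ideal.Quotient.mk Q b) = Ideal.Quotient.mk Q (σ₁ • b) := fun b =>
    Ideal.Quotient.stabilizerHom_apply Q (Q.under ℤ) (L ≃ₐ[ℚ] L) ⟨σ₁, hσ₁Q⟩ b
  let φ : (integralClosure ℤ L ⧸ Q) ≃ₐ[(FixedPoints.subalgebra ℤ (integralClosure ℤ L) H) ⧸ P]
      (integralClosure ℤ L ⧸ Q) :=
    AlgEquiv.ofRingEquiv (f := f₁.toRingEquiv) (by
      intro x
      obtain ⟨a, rfl⟩ := Ideal.Quotient.mk_surjective x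
      change f₁ (Ideal.Quotient.mk Q (a : integralClosure ℤ L)) =
        Ideal.Quotient.mk Q (a : integralClosure ℤ L)
      rw [hf₁, Ideal.Quotient.eq]
      exact hσ₁a a)
  obtain ⟨h, hh⟩ := Ideal.Quotient.stabilizerHom_surjective_of_profinite (G := H) P Q φ
  have hhQ : (h : H) • Q = Q := h.2
  have hhQ' : ((h : H) : L ≃ₐ[ℚ] L) • Q = Q := hhQ
  -- comparison of `h` and `σ₁` modulo `Q`
  have hcmp : ∀ b : integralClosure ℤ L,
      ((h : H) : L ≃ₐ[ℚ] L) • b - σ₁ • b ∈ Q := by
    intro b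
    have h1 := DFunLike.congr_fun hh (Ideal.Quotient.mk Q b)
    rw [Ideal.Quotient.stabilizerHom_apply] at h1
    change _ = f₁ (Ideal.Quotient.mk Q b) at h1
    rw [hf₁, Ideal.Quotient.eq] at h1
    exact h1
  refine ⟨(((h : H) : L ≃ₐ[ℚ] L))⁻¹ * σ₁, ?_, (((h : H) : L ≃ₐ[ℚ] L))⁻¹ * g, ?_, ?_⟩
  · apply mem_inertiaSubgroupIn_of_forall
    · rw [mul_smul, hσ₁Q, inv_smul_eq_iff, hhQ']
    · intro b
      -- apply `h⁻¹` to `h b - σ₁ b ∈ Q`
      have h1 := hcmp b
      have h2 : (((h : H) : L ≃ₐ[ℚ] L))⁻¹ • (((h : H) : L ≃ₐ[ℚ] L) • b - σ₁ • b) ∈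
          (((h : H) : L ≃ₐ[ℚ] L))⁻¹ • Q := Ideal.smul_mem_pointwise_smul _ _ _ h1
      rw [inv_smul_eq_iff.2 hhQ'.symm] at h2
      rw [smul_sub, inv_smul_smul, mem_primeOf] at h2
      have h3 := A.nonunits.neg_mem h2
      have e : -(((b - (((h : H) : L ≃ₐ[ℚ] L))⁻¹ • σ₁ • b : integralClosure ℤ L)) : L) =
          ((((h : H) : L ≃ₐ[ℚ] L))⁻¹ * σ₁) (b : L) - (b : L) := by
        push_cast
        change -((b : L) - (((h : H) : L ≃ₐ[ℚ] L))⁻¹ (σ₁ (b : L))) = _
        rw [AlgEquiv.mul_apply]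
        ring
      rw [e] at h3
      exact h3
  · exact H.mul_mem (H.inv_mem (h : H).2) hg
  · rw [hσ₁g, mul_assoc]

end Main

end Fermat.Agent.Lib.InertiaBridge
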