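import Mathlib
import Fermat.Prelude.Def_FLTPrelim_Ramification
import Fermat.Agent.Lib.FrobeniusIF
import Fermat.Agent.Lib.FrobGlueSubring

/-!
# Inertia in number fields versus inertia of valuation subrings (Minkowski bridge, finite level)

* `mem_inertiaSubgroupIn_of_sub_mem`: an element of the decomposition group of a valuation
  subring `A` which moves every element of `A` by an element of the maximal ideal lies in the
  inertia group `A.inertiaSubgroupIn K`.
* `exists_prime_forall_exists_inertia_ne_one`: a nontrivial Galois number field `M / ℚ` has a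
  prime `q` such that *every* valuation subring of `M` over `q` has a nontrivial inertia group
  (Minkowski: some prime ramifies).
-/

set_option autoImplicit false
set_option linter.style.haveILetI false
set_option linter.unusedSectionVars false

open scoped Pointwise NumberField

namespace Fermat.Agent.Lib.InertiaNumberField

section Criterion

variable {K L : Type*} [Field K] [Field L] [Algebra K L]

/-- Converse inertia criterion: an element of the decomposition group moving every element of
`A` by an element of the maximal ideal of `A` lies in the inertia group. -/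
theorem mem_inertiaSubgroupIn_of_sub_mem (A : ValuationSubring L) {σ : L ≃ₐ[K] L}
    (hd : σ ∈ A.decompositionSubgroup K) (h : ∀ x ∈ A, σ x - x ∈ A.nonunits) :
    σ ∈ A.inertiaSubgroupIn K := by
  unfold ValuationSubring.inertiaSubgroupIn
  refine ⟨⟨σ, hd⟩, ?_, rfl⟩
  show (⟨σ, hd⟩ : A.decompositionSubgroup K) ∈ A.inertiaSubgroup K
  unfold ValuationSubring.inertiaSubgroup
  rw [MonoidHom.mem_ker]
  refine RingEquiv.ext fun x => ?_
  obtain ⟨a, rfl⟩ := IsLocalRing.residue_surjective x
  show (⟨σ, hd⟩ : A.decompositionSubgroup K) • IsLocalRing.residue A a = IsLocalRing.residue A a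
  rw [← IsLocalRing.ResidueField.residue_smul, ← sub_eq_zero, ← map_sub,
    IsLocalRing.residue_eq_zero_iff]
  obtain ⟨ha, hmem⟩ := ValuationSubring.mem_nonunits_iff_exists_mem_maximalIdeal.mp (h a a.2)
  have heq : (⟨σ, hd⟩ : A.decompositionSubgroup K) • a - a = ⟨σ a - a, ha⟩ := by
    apply Subtype.ext
    push_cast
    rfl
  rw [heq]
  exact hmem

/-- Criterion via a subring of "integers": if `σ` moves every element of a subring `B ⊆ A` into
the maximal ideal of `A`, and `A` is a localisation of `B`, then `σ` is in the inertia group. -/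
theorem mem_inertiaSubgroupIn_of_subring [Algebra.IsAlgebraic K L] (B : Subring L)
    (A : ValuationSubring L) (σ : L ≃ₐ[K] L) (hBA : ∀ b ∈ B, b ∈ A)
    (hσ : ∀ b ∈ B, σ b - b ∈ A.nonunits)
    (hIF : ∀ x ∈ A, ∃ s ∈ B, s ∉ A.nonunits ∧ s * x ∈ B) :
    σ ∈ A.inertiaSubgroupIn K := by
  have hfrob : ∀ b ∈ B, σ b - b ^ 1 ∈ A.nonunits := fun b hb => by
    rw [pow_one]; exact hσ b hb
  refine mem_inertiaSubgroupIn_of_sub_mem A
    (Fermat.Agent.Lib.FrobGlueSubring.mem_decompositionSubgroup B A σ 1 hBA hfrob hIF) ?_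
  intro x hx
  have := Fermat.Agent.Lib.FrobGlueSubring.apply_sub_pow_mem_nonunits B A σ 1 hBA hfrob hIF hx
  rwa [pow_one] at this

end Criterion

section NumberField

variable (M : Type*) [Field M] [NumberField M]

/-- The ring of integers of `M` as a subring of `M`. -/
def intSubring : Subring M := (integralClosure ℤ M).toSubring

theorem mem_intSubring {x : M} : x ∈ intSubring M ↔ IsIntegral ℤ x := Iff.rfl

variable {M}

/-- Integers lie in every valuation subring. -/
theorem intSubring_le (B : ValuationSubring M) : ∀ b ∈ intSubring M, b ∈ B := fun _ hb =>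
  Fermat.Agent.Lib.FrobeniusIF.mem_of_isIntegral_int B hb

/-- Lemma IF for a number field: every valuation subring is a localisation of the ring of
integers. -/
theorem intSubring_IF (B : ValuationSubring M) :
    ∀ x ∈ B, ∃ s ∈ intSubring M, s ∉ B.nonunits ∧ s * x ∈ intSubring M := by
  intro x hx
  have hxalg : IsAlgebraic ℤ x :=
    (IsFractionRing.isAlgebraic_iff ℤ ℚ M).mpr (Algebra.IsAlgebraic.isAlgebraic x)
  obtain ⟨s, hs, hsnu, hsx⟩ := Fermat.Agent.Lib.FrobeniusIF.exists_unit_mul_isIntegral B hxalg hx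
  exact ⟨s, hs, hsnu, hsx⟩

/-- The ring hom from the ring of integers of `M` into a valuation subring. -/
def toVal (B : ValuationSubring M) : 𝓞 M →+* B where
  toFun x := ⟨algebraMap (𝓞 M) M x,
    Fermat.Agent.Lib.FrobeniusIF.mem_of_isIntegral_int B x.isIntegral_coe⟩
  map_one' := Subtype.ext (map_one _)
  map_mul' x y := Subtype.ext (map_mul _ x y)
  map_zero' := Subtype.ext (map_zero _)
  map_add' x y := Subtype.ext (map_add _ x y)

theorem coe_toVal (B : ValuationSubring M) (x : 𝓞 M) :
    ((toVal B x : B) : M) = algebraMap (𝓞 M) M x := rfl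

/-- The prime of `𝓞 M` cut out by a valuation subring. -/
def primeOf (B : ValuationSubring M) : Ideal (𝓞 M) :=
  (IsLocalRing.maximalIdeal B).comap (toVal B)

instance primeOf_isPrime (B : ValuationSubring M) : (primeOf B).IsPrime :=
  Ideal.comap_isPrime _ _

theorem mem_primeOf {B : ValuationSubring M} {x : 𝓞 M} :
    x ∈ primeOf B ↔ algebraMap (𝓞 M) M x ∈ B.nonunits := by
  unfold primeOf
  rw [Ideal.mem_comap, ValuationSubring.mem_nonunits_iff_exists_mem_maximalIdeal]
  constructor
  · intro h
    exact ⟨_, h⟩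
  · rintro ⟨_, h⟩
    exact h

theorem natCast_mem_primeOf {B : ValuationSubring M} {q : ℕ} (hB : B.LiesOverPrime q) :
    (q : 𝓞 M) ∈ primeOf B := by
  rw [mem_primeOf, map_natCast]
  exact hB

/-- The action of the Galois group on the ring of integers is the restriction of the action on
the field. -/
theorem algebraMap_smul_int (σ : M ≃ₐ[ℚ] M) (x : 𝓞 M) :
    algebraMap (𝓞 M) M (σ • x) = σ (algebraMap (𝓞 M) M x) := by
  rw [algebraMap.smul', AlgEquiv.smul_def]

/-- An element of the (ideal-theoretic) inertia group of the prime cut out by `B` lies in the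
inertia group of the valuation subring `B`. -/
theorem mem_inertiaSubgroupIn_of_mem_inertia (B : ValuationSubring M) {σ : M ≃ₐ[ℚ] M}
    (hσ : σ ∈ (primeOf B).inertia (M ≃ₐ[ℚ] M)) : σ ∈ B.inertiaSubgroupIn ℚ := by
  refine mem_inertiaSubgroupIn_of_subring (intSubring M) B σ (intSubring_le B) ?_ (intSubring_IF B)
  intro b hb
  let x : 𝓞 M := ⟨b, hb⟩
  have h2 : (σ • x - x : 𝓞 M) ∈ primeOf B := (AddSubgroup.mem_inertia.mp hσ) x
  rw [mem_primeOf, map_sub, algebraMap_smul_int] at h2
  exact h2

variable (M)

/-- **Minkowski bridge, finite level.** A Galois number field `M ≠ ℚ` has a prime `q` such that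
every valuation subring of `M` lying over `q` has a nontrivial inertia group. -/
theorem exists_prime_forall_exists_inertia_ne_one [IsGalois ℚ M]
    (h : 1 < Module.finrank ℚ M) :
    ∃ q : ℕ, q.Prime ∧ ∀ B : ValuationSubring M, B.LiesOverPrime q →
      ∃ σ ∈ B.inertiaSubgroupIn ℚ, σ ≠ 1 := by
  obtain ⟨q, hq, hram⟩ :=
    NumberField.exists_not_isUnramifiedAt_int_of_isGalois (K := M) (𝒪 := 𝓞 M) h
  refine ⟨q, hq, fun B hB => ?_⟩
  have hqP : (q : 𝓞 M) ∈ primeOf B := natCast_mem_primeOf hB
  have hnr : ¬ Algebra.IsUnramifiedAt ℤ (primeOf B) := hram (primeOf B) inferInstance hqP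
  have hlo : (primeOf B).LiesOver ((primeOf B).under ℤ) := ⟨rfl⟩
  have hcard : Nat.card ((primeOf B).inertia (M ≃ₐ[ℚ] M)) =
      ((primeOf B).under ℤ).ramificationIdxIn (𝓞 M) :=
    Ideal.card_inertia_eq_ramificationIdxIn ((primeOf B).under ℤ) (primeOf B)
  rw [Ideal.ramificationIdxIn_eq_ramificationIdx ((primeOf B).under ℤ) (primeOf B)
    (M ≃ₐ[ℚ] M)] at hcard
  have hne1 : (primeOf B).ramificationIdx ℤ ≠ 1 := fun h1 =>
    hnr (Ideal.ramificationIdx_eq_one_iff.mp h1)
  have hnebot : (primeOf B).inertia (M ≃ₐ[ℚ] M) ≠ ⊥ := by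
    intro hbot
    rw [hbot] at hcard
    rw [Subgroup.card_bot] at hcard
    exact hne1 hcard.symm
  obtain ⟨⟨σ, hσ⟩, hσ1⟩ := (Subgroup.ne_bot_iff_exists_ne_one).mp hnebot
  refine ⟨σ, mem_inertiaSubgroupIn_of_mem_inertia B hσ, fun h1 => hσ1 ?_⟩
  exact Subtype.ext h1

end NumberField

section General

/-- **Minkowski bridge, finite level**, for an arbitrary `ℚ`-algebra instance (e.g. a finite
Galois intermediate field of `AlgebraicClosure ℚ`). -/
theorem exists_prime_forall_exists_inertia_ne_one' (M : Type*) [Field M] [alg : Algebra ℚ M]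
    [hfd : FiniteDimensional ℚ M] [hgal : IsGalois ℚ M] (h : 1 < Module.finrank ℚ M) :
    ∃ q : ℕ, q.Prime ∧ ∀ B : ValuationSubring M, B.LiesOverPrime q →
      ∃ σ ∈ B.inertiaSubgroupIn ℚ, σ ≠ 1 := by
  haveI : CharZero M := algebraRat.charZero M
  have halg : alg = DivisionRing.toRatAlgebra := Subsingleton.elim _ _
  subst halg
  haveI : NumberField M := ⟨⟩
  exact exists_prime_forall_exists_inertia_ne_one M h

/-- Contrapositive form: a finite Galois extension `M / ℚ` in which, for every prime `q`, some
valuation subring over `q` has trivial inertia group, is `ℚ` itself. -/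
theorem finrank_eq_one_of_forall_exists_inertia_trivial (M : Type*) [Field M] [Algebra ℚ M]
    [FiniteDimensional ℚ M] [IsGalois ℚ M]
    (h : ∀ q : ℕ, q.Prime → ∃ B : ValuationSubring M, B.LiesOverPrime q ∧
      ∀ σ ∈ B.inertiaSubgroupIn ℚ, σ = 1) :
    Module.finrank ℚ M = 1 := by
  by_contra hne
  have hpos : 0 < Module.finrank ℚ M := Module.finrank_pos
  obtain ⟨q, hq, hB⟩ := exists_prime_forall_exists_inertia_ne_one' M (by omega)
  obtain ⟨B, hBq, hσ⟩ := h q hq
  obtain ⟨σ, hσI, hσ1⟩ := hB B hBq
  exact hσ1 (hσ σ hσI)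

end General

end Fermat.Agent.Lib.InertiaNumberField
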