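import Fermat.Agent.Lib.InertiaNumberField
import Fermat.Agent.S05.Inertia

/-!
# Primes of a number field versus valuation subrings: decomposition and inertia groups

For a nonzero prime `P` of the ring of integers of a number field `M` we consider the valuation
subring `valSubringOf P = (v_P.valuation M).valuationSubring` of `M` and prove the translation
lemmas

* (T1) `liesOverPrime_valSubringOf`: `(q : 𝓞 M) ∈ P → (valSubringOf P).LiesOverPrime q`;
* (T2) `mem_inertiaSubgroupIn_valSubringOf`: `τ ∈ P.inertia Gal(M/ℚ)` implies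
  `τ ∈ (valSubringOf P).inertiaSubgroupIn ℚ`;
* (T3) `mem_decompositionSubgroup_valSubringOf`: `τ • P = P` implies
  `τ ∈ (valSubringOf P).decompositionSubgroup ℚ`,

together with the converse statements and the dictionary `primeOf (valSubringOf P) = P`,
`valSubringOf (primeOf B) = B`.
-/

set_option autoImplicit false
set_option linter.style.haveILetI false
set_option linter.unusedSectionVars false

open scoped Pointwise NumberField
open IsDedekindDomain

namespace Fermat.Agent.Lib.InertiaNumberFieldPrime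

open Fermat.Agent.Lib.InertiaNumberField

variable {M : Type*} [Field M] [NumberField M]


section General

variable (B : ValuationSubring M)

/-- An integral element outside the prime cut out by `B` is a unit of `B`. -/
theorem valuation_eq_one_of_notMem_primeOf {s : 𝓞 M} (hs : s ∉ primeOf B) :
    B.valuation (algebraMap (𝓞 M) M s) = 1 := by
  have hmem : algebraMap (𝓞 M) M s ∈ B :=
    Fermat.Agent.Lib.FrobeniusIF.mem_of_isIntegral_int B s.isIntegral_coe
  rcases B.valuation_lt_one_or_eq_one ⟨_, hmem⟩ with h | h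
  · exact absurd (mem_primeOf.mpr (B.mem_nonunits_iff.mpr h)) hs
  · exact h

/-- If `τ` stabilises the prime cut out by `B` then `τ` maps `B` into itself. -/
theorem apply_mem_of_smul_primeOf_eq {τ : M ≃ₐ[ℚ] M} (hτ : τ • primeOf B = primeOf B) {x : M}
    (hx : x ∈ B) : τ x ∈ B := by
  obtain ⟨s, hs, hsnu, hsx⟩ := intSubring_IF B x hx
  let s' : 𝓞 M := ⟨s, hs⟩
  let a' : 𝓞 M := ⟨s * x, hsx⟩
  have hs' : s' ∉ primeOf B := fun h => hsnu (mem_primeOf.mp h)
  have hτs' : τ • s' ∉ primeOf B := by
    intro h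
    rw [← hτ, Ideal.smul_mem_pointwise_smul_iff] at h
    exact hs' h
  have h1 : B.valuation (τ s) = 1 := by
    have := valuation_eq_one_of_notMem_primeOf B hτs'
    rwa [algebraMap_smul_int] at this
  have h2 : B.valuation (τ (s * x)) ≤ 1 := by
    have hmem : algebraMap (𝓞 M) M (τ • a') ∈ B :=
      Fermat.Agent.Lib.FrobeniusIF.mem_of_isIntegral_int B (τ • a').isIntegral_coe
    rw [algebraMap_smul_int] at hmem
    exact (B.valuation_le_one_iff _).mpr hmem
  rw [map_mul, map_mul, h1, one_mul] at h2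
  exact (B.valuation_le_one_iff _).mp h2

/-- **(T3, general form)** an automorphism stabilising the prime cut out by `B` lies in the
decomposition group of `B`. -/
theorem mem_decompositionSubgroup_of_smul_primeOf_eq {τ : M ≃ₐ[ℚ] M}
    (hτ : τ • primeOf B = primeOf B) : τ ∈ B.decompositionSubgroup ℚ := by
  have hτ' : τ⁻¹ • primeOf B = primeOf B := by
    conv_lhs => rw [← hτ]
    rw [inv_smul_smul]
  rw [MulAction.mem_stabilizer_iff]
  ext x
  rw [ValuationSubring.mem_pointwise_smul_iff_inv_smul_mem]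
  constructor
  · intro h
    have := apply_mem_of_smul_primeOf_eq B hτ h
    rwa [AlgEquiv.smul_def, AlgEquiv.aut_inv, AlgEquiv.apply_symm_apply] at this
  · intro h
    exact apply_mem_of_smul_primeOf_eq B hτ' h

/-- Conversely, the decomposition group of `B` stabilises the prime cut out by `B`. -/
theorem smul_primeOf_eq_of_mem_decompositionSubgroup {τ : M ≃ₐ[ℚ] M}
    (hτ : τ ∈ B.decompositionSubgroup ℚ) : τ • primeOf B = primeOf B := by
  have hτ' : τ⁻¹ ∈ B.decompositionSubgroup ℚ := Subgroup.inv_mem _ hτ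
  ext x
  rw [Ideal.mem_pointwise_smul_iff_inv_smul_mem, mem_primeOf, mem_primeOf, algebraMap_smul_int,
    B.mem_nonunits_iff, B.mem_nonunits_iff]
  have h := Fermat.Agent.S05.Inertia.valuation_apply_lt_iff_of_mem_decomp hτ'
    (algebraMap (𝓞 M) M x) 1
  rwa [map_one, map_one] at h

/-- Conversely, valuation-subring inertia is ideal-theoretic inertia. -/
theorem mem_inertia_primeOf_of_mem_inertiaSubgroupIn {τ : M ≃ₐ[ℚ] M}
    (hτ : τ ∈ B.inertiaSubgroupIn ℚ) : τ ∈ (primeOf B).inertia (M ≃ₐ[ℚ] M) := by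
  rw [AddSubgroup.mem_inertia]
  intro x
  show τ • x - x ∈ primeOf B
  rw [mem_primeOf, map_sub, algebraMap_smul_int]
  exact Fermat.Agent.S05.Inertia.apply_sub_mem_nonunits hτ
    (Fermat.Agent.Lib.FrobeniusIF.mem_of_isIntegral_int B x.isIntegral_coe)

theorem mem_inertiaSubgroupIn_iff_mem_inertia_primeOf {τ : M ≃ₐ[ℚ] M} :
    τ ∈ B.inertiaSubgroupIn ℚ ↔ τ ∈ (primeOf B).inertia (M ≃ₐ[ℚ] M) :=
  ⟨mem_inertia_primeOf_of_mem_inertiaSubgroupIn B, mem_inertiaSubgroupIn_of_mem_inertia B⟩

theorem mem_decompositionSubgroup_iff_smul_primeOf_eq {τ : M ≃ₐ[ℚ] M} :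
    τ ∈ B.decompositionSubgroup ℚ ↔ τ • primeOf B = primeOf B :=
  ⟨smul_primeOf_eq_of_mem_decompositionSubgroup B, mem_decompositionSubgroup_of_smul_primeOf_eq B⟩

end General

/-- The height one prime attached to a nonzero prime ideal. -/
def heightOne (P : Ideal (𝓞 M)) [hP : P.IsPrime] (h0 : P ≠ ⊥) : HeightOneSpectrum (𝓞 M) :=
  ⟨P, hP, h0⟩

/-- The valuation subring of `M` attached to a nonzero prime `P` of `𝓞 M`. -/
noncomputable def valSubringOf (P : Ideal (𝓞 M)) [P.IsPrime] (h0 : P ≠ ⊥) : ValuationSubring M :=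
  ((heightOne P h0).valuation M).valuationSubring

variable (P : Ideal (𝓞 M)) [P.IsPrime] (h0 : P ≠ ⊥)

theorem mem_valSubringOf_iff {x : M} :
    x ∈ valSubringOf P h0 ↔ (heightOne P h0).valuation M x ≤ 1 :=
  Valuation.mem_valuationSubring_iff _ _

theorem mem_nonunits_valSubringOf_iff {x : M} :
    x ∈ (valSubringOf P h0).nonunits ↔ (heightOne P h0).valuation M x < 1 := by
  rw [ValuationSubring.mem_nonunits_iff]
  exact ((Valuation.isEquiv_valuation_valuationSubring
    ((heightOne P h0).valuation M)).lt_one_iff_lt_one).symm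

/-- The prime cut out by `valSubringOf P` is `P`. -/
theorem primeOf_valSubringOf : primeOf (valSubringOf P h0) = P := by
  ext x
  rw [mem_primeOf, mem_nonunits_valSubringOf_iff]
  exact (heightOne P h0).valuation_lt_one_iff_mem x

/-- **(T1)** -/
theorem liesOverPrime_valSubringOf {q : ℕ} (hq : (q : 𝓞 M) ∈ P) :
    (valSubringOf P h0).LiesOverPrime q := by
  have h : (q : 𝓞 M) ∈ primeOf (valSubringOf P h0) := by rw [primeOf_valSubringOf]; exact hq
  rw [mem_primeOf, map_natCast] at h
  exact h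

/-- **(T2)** ideal-theoretic inertia is valuation-subring inertia. -/
theorem mem_inertiaSubgroupIn_valSubringOf {τ : M ≃ₐ[ℚ] M}
    (hτ : τ ∈ P.inertia (M ≃ₐ[ℚ] M)) : τ ∈ (valSubringOf P h0).inertiaSubgroupIn ℚ := by
  refine mem_inertiaSubgroupIn_of_mem_inertia _ ?_
  rw [primeOf_valSubringOf]
  exact hτ

/-- **(T3)** the stabiliser of `P` is the decomposition group of `valSubringOf P`. -/
theorem mem_decompositionSubgroup_valSubringOf {τ : M ≃ₐ[ℚ] M} (hτ : τ • P = P) :
    τ ∈ (valSubringOf P h0).decompositionSubgroup ℚ := by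
  refine mem_decompositionSubgroup_of_smul_primeOf_eq _ ?_
  rw [primeOf_valSubringOf]
  exact hτ

theorem mem_inertiaSubgroupIn_valSubringOf_iff {τ : M ≃ₐ[ℚ] M} :
    τ ∈ (valSubringOf P h0).inertiaSubgroupIn ℚ ↔ τ ∈ P.inertia (M ≃ₐ[ℚ] M) := by
  rw [mem_inertiaSubgroupIn_iff_mem_inertia_primeOf, primeOf_valSubringOf]

theorem mem_decompositionSubgroup_valSubringOf_iff {τ : M ≃ₐ[ℚ] M} :
    τ ∈ (valSubringOf P h0).decompositionSubgroup ℚ ↔ τ • P = P := by
  rw [mem_decompositionSubgroup_iff_smul_primeOf_eq, primeOf_valSubringOf]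

section Dictionary

/-- A valuation subring over a prime number cuts out a nonzero prime. -/
theorem primeOf_ne_bot_of_liesOverPrime {B : ValuationSubring M} {q : ℕ} (hq : q ≠ 0)
    (hB : B.LiesOverPrime q) : primeOf B ≠ ⊥ := by
  intro h
  have h1 : (q : 𝓞 M) ∈ primeOf B := natCast_mem_primeOf hB
  rw [h, Ideal.mem_bot] at h1
  exact hq (by exact_mod_cast h1)

/-- Every valuation subring of `M` cutting out a nonzero prime is the valuation subring of that
prime. -/
theorem valSubringOf_primeOf (B : ValuationSubring M) (hB : primeOf B ≠ ⊥) :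
    valSubringOf (primeOf B) hB = B := by
  have key : ∀ x : M, x ∈ B → x ∈ valSubringOf (primeOf B) hB := by
    intro x hx
    obtain ⟨s, hs, hsnu, hsx⟩ := intSubring_IF B x hx
    let s' : 𝓞 M := ⟨s, hs⟩
    let a' : 𝓞 M := ⟨s * x, hsx⟩
    have hs' : s' ∉ primeOf B := fun h => hsnu (mem_primeOf.mp h)
    have h1 : (heightOne (primeOf B) hB).valuation M (algebraMap (𝓞 M) M s') = 1 :=
      ((heightOne (primeOf B) hB).valuation_eq_one_iff_notMem).mpr hs'
    have h2 : (heightOne (primeOf B) hB).valuation M (algebraMap (𝓞 M) M a') ≤ 1 :=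
      (heightOne (primeOf B) hB).valuation_le_one a'
    have h3 : algebraMap (𝓞 M) M a' = algebraMap (𝓞 M) M s' * x := rfl
    rw [mem_valSubringOf_iff]
    rw [h3, map_mul, h1, one_mul] at h2
    exact h2
  apply le_antisymm
  · intro x hx
    by_contra hxB
    have hx0 : x ≠ 0 := fun h => hxB (h ▸ B.zero_mem)
    have hinv : x⁻¹ ∈ B := (B.mem_or_inv_mem x).resolve_left hxB
    have hinvnu : x⁻¹ ∈ B.nonunits := by
      rw [B.mem_nonunits_iff]
      rcases B.valuation_lt_one_or_eq_one ⟨_, hinv⟩ with h | h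
      · exact h
      · exfalso
        apply hxB
        rw [← B.valuation_le_one_iff]
        have h' : B.valuation x⁻¹ = 1 := h
        rw [map_inv₀, inv_eq_one] at h'
        exact h'.le
    obtain ⟨s, hs, hsnu, hsx⟩ := intSubring_IF B x⁻¹ hinv
    let s' : 𝓞 M := ⟨s, hs⟩
    let a' : 𝓞 M := ⟨s * x⁻¹, hsx⟩
    have hs' : s' ∉ primeOf B := fun h => hsnu (mem_primeOf.mp h)
    have ha' : a' ∈ primeOf B := by
      rw [mem_primeOf]
      show s * x⁻¹ ∈ B.nonunits
      rw [mul_comm]
      exact Fermat.Agent.Lib.FrobeniusIF.mul_mem_nonunits B hinvnu (intSubring_le B s hs)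
    have h1 : (heightOne (primeOf B) hB).valuation M (algebraMap (𝓞 M) M s') = 1 :=
      ((heightOne (primeOf B) hB).valuation_eq_one_iff_notMem).mpr hs'
    have h2 : (heightOne (primeOf B) hB).valuation M (algebraMap (𝓞 M) M a') < 1 :=
      ((heightOne (primeOf B) hB).valuation_lt_one_iff_mem a').mpr ha'
    have h3 : algebraMap (𝓞 M) M a' = algebraMap (𝓞 M) M s' * x⁻¹ := rfl
    rw [h3, map_mul, h1, one_mul, map_inv₀] at h2
    have h4 : (heightOne (primeOf B) hB).valuation M x ≤ 1 := (mem_valSubringOf_iff _ hB).mp hx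
    have hxv : (heightOne (primeOf B) hB).valuation M x ≠ 0 :=
      (Valuation.ne_zero_iff _).mpr hx0
    have h5 : (1 : WithZero (Multiplicative ℤ)) ≤ ((heightOne (primeOf B) hB).valuation M x)⁻¹ :=
      (one_le_inv₀ (zero_lt_iff.mpr hxv)).mpr h4
    exact absurd h2 (not_lt.mpr h5)
  · exact key

/-- Every valuation subring over a prime number is `valSubringOf` of a nonzero prime. -/
theorem exists_eq_valSubringOf {B : ValuationSubring M} {q : ℕ} (hq : q ≠ 0)
    (hB : B.LiesOverPrime q) :
    ∃ (P : Ideal (𝓞 M)) (_ : P.IsPrime) (h0 : P ≠ ⊥), (q : 𝓞 M) ∈ P ∧ B = valSubringOf P h0 :=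
  ⟨primeOf B, inferInstance, primeOf_ne_bot_of_liesOverPrime hq hB, natCast_mem_primeOf hB,
    (valSubringOf_primeOf B _).symm⟩

end Dictionary

end Fermat.Agent.Lib.InertiaNumberFieldPrime
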