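/-
Restriction of decomposition and inertia groups (valuation-subring formalism of the Prelude).

Setting: `L/ℚ` Galois (possibly infinite, e.g. `L = AlgebraicClosure ℚ`), `M` an intermediate
field normal over `ℚ`, `A` a valuation subring of `L`, `B = A.comap (algebraMap M L)` its
restriction to `M`.  Main results:

* `exists_smul_eq_of_comap_eq`   : `Gal(L/M)` is transitive on valuation subrings of `L` over `B`;
* `restrict_mem_decomposition`, `exists_mem_decomposition` :
    `AlgEquiv.restrictNormalHom M` maps `A.decompositionSubgroup ℚ` ONTO `B.decompositionSubgroup ℚ`;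
* `restrict_mem_inertia`, `exists_mem_inertia` :
    `AlgEquiv.restrictNormalHom M` maps `A.inertiaSubgroupIn ℚ` ONTO `B.inertiaSubgroupIn ℚ`;
* `exists_comap_eq` : every valuation subring of `M` is the restriction of one of `L`;
* `mem_inertiaSubgroupIn_of_forall`, `apply_sub_mem_nonunits`, `mem_inertia_of_forall_int` :
    element-wise characterisations of the inertia group.

Owner: helper79.  Shared groundwork for S13 (Minkowski bridge) and S14 (reduction block).
-/
import Mathlib
import Fermat.Prelude.Def_FLTPrelim_Ramification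
import Fermat.Agent.Lib.FrobeniusIF

set_option autoImplicit false
set_option linter.unusedSectionVars false
set_option linter.style.haveILetI false
open scoped Pointwise

namespace Fermat.Agent.Lib.InertiaRestrict

open Fermat.Agent.Lib.FrobeniusIF

section Basic

variable {K L : Type*} [Field K] [Field L] [Algebra K L] {A : ValuationSubring L}

/-- nonunits without valuations. -/
theorem mem_nonunits_iff_inv {x : L} : x ∈ A.nonunits ↔ x = 0 ∨ x⁻¹ ∉ A := by
  rw [A.mem_nonunits_iff]
  by_cases hx : x = 0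
  · subst hx; simp
  · simp only [hx, false_or]
    rw [← A.valuation_le_one_iff, map_inv₀, not_le]
    have h0 : A.valuation x ≠ 0 := (Valuation.ne_zero_iff _).2 hx
    constructor
    · intro h
      exact (one_lt_inv₀ (zero_lt_iff.2 h0)).2 h
    · intro h
      exact (one_lt_inv₀ (zero_lt_iff.2 h0)).1 h

/-- Converse of `S05.Inertia.apply_sub_mem_nonunits`. -/
theorem mem_inertiaSubgroupIn_of_forall {σ : L ≃ₐ[K] L} (hd : σ ∈ A.decompositionSubgroup K)
    (h : ∀ w ∈ A, σ w - w ∈ A.nonunits) : σ ∈ A.inertiaSubgroupIn K := by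
  refine ⟨⟨σ, hd⟩, ?_, rfl⟩
  change MulSemiringAction.toRingAut (A.decompositionSubgroup K)
      (IsLocalRing.ResidueField A) ⟨σ, hd⟩ = 1
  ext x
  obtain ⟨⟨w, hw⟩, rfl⟩ := IsLocalRing.residue_surjective x
  change (⟨σ, hd⟩ : A.decompositionSubgroup K) • IsLocalRing.residue A ⟨w, hw⟩ = _
  rw [← IsLocalRing.ResidueField.residue_smul]
  simp only [RingAut.one_apply]
  rw [← sub_eq_zero, ← map_sub, IsLocalRing.residue_eq_zero_iff]
  have h3 := h w hw
  rw [ValuationSubring.mem_nonunits_iff_exists_mem_maximalIdeal] at h3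
  obtain ⟨h4, h5⟩ := h3
  convert h5 using 1
  exact Subtype.ext rfl

theorem apply_sub_mem_nonunits {σ : L ≃ₐ[K] L} (hσ : σ ∈ A.inertiaSubgroupIn K) {w : L}
    (hw : w ∈ A) : σ w - w ∈ A.nonunits := by
  obtain ⟨τ, hi, rfl⟩ := hσ
  have hker : MulSemiringAction.toRingAut (A.decompositionSubgroup K)
      (IsLocalRing.ResidueField A) τ = 1 := hi
  have h1 : τ • IsLocalRing.residue A ⟨w, hw⟩ = IsLocalRing.residue A ⟨w, hw⟩ := by
    have := congrArg (fun f : RingAut (IsLocalRing.ResidueField A) =>
      f (IsLocalRing.residue A ⟨w, hw⟩)) hker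
    simpa using this
  rw [← IsLocalRing.ResidueField.residue_smul] at h1
  have h2 : IsLocalRing.residue A (τ • (⟨w, hw⟩ : A) - ⟨w, hw⟩) = 0 := by
    rw [map_sub, h1, sub_self]
  rw [IsLocalRing.residue_eq_zero_iff] at h2
  have h3 : ((τ • (⟨w, hw⟩ : A) - ⟨w, hw⟩ : A) : L) ∈ A.nonunits := by
    rw [ValuationSubring.mem_nonunits_iff_exists_mem_maximalIdeal]
    exact ⟨_, h2⟩
  exact h3

end Basic

section Prime

variable {L : Type*} [Field L]

/-- The prime ideal of the ring of algebraic integers of `L` cut out by a valuation subring. -/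
def primeOf (A : ValuationSubring L) : Ideal (integralClosure ℤ L) where
  carrier := {s | (s : L) ∈ A.nonunits}
  add_mem' := by
    intro a b ha hb
    simp only [Set.mem_ofPred_eq] at ha hb ⊢
    rw [A.mem_nonunits_iff] at ha hb ⊢
    push_cast
    exact lt_of_le_of_lt (A.valuation.map_add _ _) (max_lt ha hb)
  zero_mem' := by
    simp only [Set.mem_ofPred_eq]
    rw [A.mem_nonunits_iff]
    simp
  smul_mem' := by
    intro c x hx
    simp only [Set.mem_ofPred_eq, smul_eq_mul] at hx ⊢
    push_cast
    rw [mul_comm]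
    exact mul_mem_nonunits A hx (mem_of_isIntegral_int A c.2)

theorem mem_primeOf {A : ValuationSubring L} {s : integralClosure ℤ L} :
    s ∈ primeOf A ↔ (s : L) ∈ A.nonunits := Iff.rfl

theorem coe_mem (A : ValuationSubring L) (s : integralClosure ℤ L) : (s : L) ∈ A :=
  mem_of_isIntegral_int A s.2

instance primeOf_isPrime (A : ValuationSubring L) : (primeOf A).IsPrime := by
  refine ⟨?_, ?_⟩
  · intro h
    have h1 : (1 : integralClosure ℤ L) ∈ primeOf A := h ▸ Submodule.mem_top
    rw [mem_primeOf, A.mem_nonunits_iff] at h1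
    simp at h1
  · intro a b hab
    rw [mem_primeOf, A.mem_nonunits_iff] at hab
    push_cast at hab
    rw [map_mul] at hab
    by_contra hcon
    push Not at hcon
    obtain ⟨ha, hb⟩ := hcon
    rw [mem_primeOf, A.mem_nonunits_iff, not_lt] at ha hb
    have ha1 : A.valuation (a : L) = 1 :=
      le_antisymm ((A.valuation_le_one_iff _).2 (coe_mem A a)) ha
    have hb1 : A.valuation (b : L) = 1 :=
      le_antisymm ((A.valuation_le_one_iff _).2 (coe_mem A b)) hb
    rw [ha1, hb1] at hab
    simp at hab

/-- `A` is the localisation of the ring of algebraic integers at `primeOf A` (easy direction). -/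
theorem mem_of_mul_eq {A : ValuationSubring L} {x : L} {a s : integralClosure ℤ L}
    (hs : s ∉ primeOf A) (h : x * (s : L) = (a : L)) : x ∈ A := by
  rw [mem_primeOf, A.mem_nonunits_iff, not_lt] at hs
  have hs1 : A.valuation (s : L) = 1 :=
    le_antisymm ((A.valuation_le_one_iff _).2 (coe_mem A s)) hs
  rw [← A.valuation_le_one_iff]
  have := congrArg A.valuation h
  rw [map_mul, hs1, mul_one] at this
  rw [this]
  exact (A.valuation_le_one_iff _).2 (coe_mem A a)

/-- `A` is the localisation of the ring of algebraic integers at `primeOf A` (Lemma IF). -/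
theorem exists_mul_eq [CharZero L] (A : ValuationSubring L) {x : L} (hxalg : IsAlgebraic ℤ x)
    (hx : x ∈ A) :
    ∃ a s : integralClosure ℤ L, s ∉ primeOf A ∧ x * (s : L) = (a : L) := by
  obtain ⟨s, hs, hsu, hsx⟩ := exists_unit_mul_isIntegral A hxalg hx
  exact ⟨⟨s * x, hsx⟩, ⟨s, hs⟩, hsu, mul_comm _ _⟩

end Prime

section Rel

variable {M L : Type*} [Field M] [Field L] [Algebra M L]

/-- The map on rings of algebraic integers induced by a field extension. -/
noncomputable def intMap : integralClosure ℤ M →+* integralClosure ℤ L :=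
  ((IsScalarTower.toAlgHom ℤ M L).comp (integralClosure ℤ M).val).codRestrict
    (integralClosure ℤ L) (fun x => x.2.map (IsScalarTower.toAlgHom ℤ M L)) |>.toRingHom

@[simp] theorem coe_intMap (r : integralClosure ℤ M) :
    ((intMap (L := L) r : integralClosure ℤ L) : L) = algebraMap M L (r : M) := rfl

/-- The algebra structure `𝓞_M → 𝓞_L`. -/
@[reducible] noncomputable def intAlgebra : Algebra (integralClosure ℤ M) (integralClosure ℤ L) :=
  (intMap (M := M) (L := L)).toAlgebra

attribute [local instance] intAlgebra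

theorem coe_algebraMap (r : integralClosure ℤ M) :
    ((algebraMap (integralClosure ℤ M) (integralClosure ℤ L) r : integralClosure ℤ L) : L) =
      algebraMap M L (r : M) := rfl

instance smulCommClass_int :
    SMulCommClass (L ≃ₐ[M] L) (integralClosure ℤ M) (integralClosure ℤ L) := by
  refine ⟨fun g r s => ?_⟩
  apply Subtype.ext
  rw [Algebra.smul_def, Algebra.smul_def]
  change g ((algebraMap M L (r : M)) * (s : L)) = (algebraMap M L (r : M)) * g (s : L)
  rw [map_mul, g.commutes]

theorem isInvariant_int [IsGalois M L] :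
    Algebra.IsInvariant (integralClosure ℤ M) (integralClosure ℤ L) (L ≃ₐ[M] L) := by
  refine ⟨fun b hb => ?_⟩
  have hmem : (b : L) ∈ (⊥ : IntermediateField M L) := by
    rw [← InfiniteGalois.fixedField_fixingSubgroup (⊥ : IntermediateField M L)]
    rintro ⟨g, -⟩
    exact congrArg Subtype.val (hb g)
  rw [IntermediateField.mem_bot] at hmem
  obtain ⟨q, hq⟩ := hmem
  have hint : IsIntegral ℤ q := by
    have h1 : IsIntegral ℤ (algebraMap M L q) := hq ▸ b.2
    exact (isIntegral_algebraMap_iff (algebraMap M L).injective).mp h1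
  exact ⟨⟨q, hint⟩, Subtype.ext hq⟩

end Rel

section Trans

variable {M L : Type*} [Field M] [Field L] [Algebra M L] [IsGalois M L]

attribute [local instance] intAlgebra

/-- Two primes of `𝓞_L` with the same contraction to `𝓞_M` are conjugate under `Gal(L/M)`. -/
theorem exists_smul_eq_of_under_eq (Q Q' : Ideal (integralClosure ℤ L)) [Q.IsPrime] [Q'.IsPrime]
    (h : Q.under (integralClosure ℤ M) = Q'.under (integralClosure ℤ M)) :
    ∃ ρ : L ≃ₐ[M] L, Q' = ρ • Q := by
  letI : TopologicalSpace (integralClosure ℤ L) := ⊥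
  haveI : DiscreteTopology (integralClosure ℤ L) := ⟨rfl⟩
  haveI : ContinuousSMul (L ≃ₐ[M] L) (integralClosure ℤ L) := by
    rw [continuousSMul_iff_stabilizer_isOpen]
    intro b
    convert stabilizer_isOpen_of_isIntegral (K := M) (L := L) (b : L) using 1
    ext g
    simp [MulAction.mem_stabilizer_iff, Subtype.ext_iff]
  haveI := isInvariant_int (M := M) (L := L)
  exact Algebra.IsInvariant.exists_smul_of_under_eq_of_profinite
    (A := integralClosure ℤ M) (G := L ≃ₐ[M] L) Q Q' h

attribute [local instance] Ideal.Quotient.field in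
theorem stabilizerHom_surjective (q : Ideal (integralClosure ℤ M))
    (Q : Ideal (integralClosure ℤ L)) [Q.IsPrime] [Q.LiesOver q] :
    Function.Surjective (Ideal.Quotient.stabilizerHom Q q (L ≃ₐ[M] L)) := by
  letI : TopologicalSpace (integralClosure ℤ L) := ⊥
  haveI : DiscreteTopology (integralClosure ℤ L) := ⟨rfl⟩
  haveI : ContinuousSMul (L ≃ₐ[M] L) (integralClosure ℤ L) := by
    rw [continuousSMul_iff_stabilizer_isOpen]
    intro b
    convert stabilizer_isOpen_of_isIntegral (K := M) (L := L) (b : L) using 1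
    ext g
    simp [MulAction.mem_stabilizer_iff, Subtype.ext_iff]
  haveI := isInvariant_int (M := M) (L := L)
  exact Ideal.Quotient.stabilizerHom_surjective_of_profinite (G := L ≃ₐ[M] L) q Q

end Trans

section Conj

variable {L : Type*} [Field L] {G : Type*} [Group G] [MulSemiringAction G L]

theorem mem_nonunits_smul_iff (g : G) (A : ValuationSubring L) (x : L) :
    x ∈ (g • A).nonunits ↔ g⁻¹ • x ∈ A.nonunits := by
  rw [mem_nonunits_iff_inv, mem_nonunits_iff_inv,
    ValuationSubring.mem_pointwise_smul_iff_inv_smul_mem, smul_inv'', smul_eq_zero_iff_eq]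

theorem primeOf_smul (g : G) (A : ValuationSubring L) : primeOf (g • A) = g • primeOf A := by
  ext s
  rw [Ideal.mem_pointwise_smul_iff_inv_smul_mem, mem_primeOf, mem_primeOf, mem_nonunits_smul_iff]
  rfl

theorem smul_eq_of_primeOf_eq [CharZero L] (halg : ∀ x : L, IsAlgebraic ℤ x) (g : G)
    (A A' : ValuationSubring L) (h : primeOf A' = g • primeOf A) : g • A = A' := by
  have key : ∀ (g : G) (A A' : ValuationSubring L), primeOf A' = g • primeOf A →
      ∀ x ∈ A, g • x ∈ A' := by
    intro g A A' h x hx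
    obtain ⟨a, s, hs, hxs⟩ := exists_mul_eq A (halg x) hx
    refine mem_of_mul_eq (a := g • a) (s := g • s) ?_ ?_
    · rw [h, Ideal.smul_mem_pointwise_smul_iff]
      exact hs
    · change g • x * g • (s : L) = g • (a : L)
      rw [← smul_mul', hxs]
  have h' : primeOf A = g⁻¹ • primeOf A' := by
    rw [h, inv_smul_smul]
  ext y
  rw [ValuationSubring.mem_pointwise_smul_iff_inv_smul_mem]
  constructor
  · intro hy
    have := key g A A' h _ hy
    rwa [smul_inv_smul] at this
  · intro hy
    exact key g⁻¹ A' A h' y hy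

end Conj

section Main

variable {L : Type*} [Field L] [Algebra ℚ L] [IsGalois ℚ L] (M : IntermediateField ℚ L)

attribute [local instance] intAlgebra

theorem isAlgebraic_int (x : L) : IsAlgebraic ℤ x :=
  (IsFractionRing.isAlgebraic_iff ℤ ℚ L).mpr (Algebra.IsAlgebraic.isAlgebraic x)

theorem mem_nonunits_comap_iff {M' : Type*} [Field M'] (f : M' →+* L) (A : ValuationSubring L)
    (x : M') : x ∈ (A.comap f).nonunits ↔ f x ∈ A.nonunits := by
  rw [mem_nonunits_iff_inv, mem_nonunits_iff_inv, ValuationSubring.mem_comap, map_inv₀,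
    map_eq_zero]

theorem under_primeOf (A : ValuationSubring L) :
    (primeOf A).under (integralClosure ℤ M) = primeOf (A.comap (algebraMap M L)) := by
  ext r
  rw [Ideal.mem_comap, mem_primeOf, mem_primeOf, mem_nonunits_comap_iff]
  rfl

/-- `Gal(L/M)` acts transitively on the valuation subrings of `L` with a given restriction
to `M`. -/
theorem exists_smul_eq_of_comap_eq (A A' : ValuationSubring L)
    (h : A.comap (algebraMap M L) = A'.comap (algebraMap M L)) :
    ∃ ρ : L ≃ₐ[M] L, ρ • A = A' := by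
  haveI : CharZero L := algebraRat.charZero L
  have h1 : (primeOf A).under (integralClosure ℤ M) = (primeOf A').under (integralClosure ℤ M) := by
    rw [under_primeOf, under_primeOf, h]
  obtain ⟨ρ, hρ⟩ := exists_smul_eq_of_under_eq (M := M) (primeOf A) (primeOf A') h1
  exact ⟨ρ, smul_eq_of_primeOf_eq isAlgebraic_int ρ A A' hρ⟩

theorem restrictScalars_smul (ρ : L ≃ₐ[M] L) (A : ValuationSubring L) :
    (ρ.restrictScalars ℚ) • A = ρ • A := by
  ext x
  rw [ValuationSubring.mem_pointwise_smul_iff_inv_smul_mem,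
    ValuationSubring.mem_pointwise_smul_iff_inv_smul_mem]
  rfl

variable [Normal ℚ M]

theorem restrictNormalHom_restrictScalars (ρ : L ≃ₐ[M] L) :
    AlgEquiv.restrictNormalHom M (ρ.restrictScalars ℚ) = 1 := by
  ext x
  have := AlgEquiv.restrictNormal_commutes (ρ.restrictScalars ℚ) M x
  change algebraMap M L ((ρ.restrictScalars ℚ).restrictNormal M x) = algebraMap M L x
  rw [this]
  exact ρ.commutes x

theorem comap_smul (τ : L ≃ₐ[ℚ] L) (A : ValuationSubring L) :
    (τ • A).comap (algebraMap M L) =
      (AlgEquiv.restrictNormalHom M τ) • A.comap (algebraMap M L) := by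
  ext x
  rw [ValuationSubring.mem_comap, ValuationSubring.mem_pointwise_smul_iff_inv_smul_mem,
    ValuationSubring.mem_pointwise_smul_iff_inv_smul_mem, ValuationSubring.mem_comap]
  have := AlgEquiv.restrictNormal_commutes (τ⁻¹) M x
  rw [← map_inv]
  change τ⁻¹ (algebraMap M L x) ∈ A ↔ algebraMap M L ((τ⁻¹).restrictNormal M x) ∈ A
  rw [this]

/-- Restriction maps decomposition groups into decomposition groups. -/
theorem restrict_mem_decomposition {A : ValuationSubring L} {τ : L ≃ₐ[ℚ] L}
    (hτ : τ ∈ A.decompositionSubgroup ℚ) :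
    AlgEquiv.restrictNormalHom M τ ∈ (A.comap (algebraMap M L)).decompositionSubgroup ℚ := by
  rw [MulAction.mem_stabilizer_iff] at hτ ⊢
  rw [← comap_smul, hτ]

/-- **Decomposition groups surject under restriction.** -/
theorem exists_mem_decomposition (A : ValuationSubring L) (σ : M ≃ₐ[ℚ] M)
    (hσ : σ ∈ (A.comap (algebraMap M L)).decompositionSubgroup ℚ) :
    ∃ τ ∈ A.decompositionSubgroup ℚ, AlgEquiv.restrictNormalHom M τ = σ := by
  obtain ⟨τ0, hτ0⟩ := AlgEquiv.restrictNormalHom_surjective (F := ℚ) (K₁ := M) L σ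
  have h1 : (τ0 • A).comap (algebraMap M L) = A.comap (algebraMap M L) := by
    rw [comap_smul, hτ0]
    exact MulAction.mem_stabilizer_iff.1 hσ
  obtain ⟨ρ, hρ⟩ := exists_smul_eq_of_comap_eq M (τ0 • A) A h1
  refine ⟨(ρ.restrictScalars ℚ) * τ0, ?_, ?_⟩
  · rw [MulAction.mem_stabilizer_iff, mul_smul, restrictScalars_smul, hρ]
  · rw [map_mul, restrictNormalHom_restrictScalars, one_mul, hτ0]

end Main

section Main2

variable {L : Type*} [Field L] [Algebra ℚ L] [IsGalois ℚ L] (M : IntermediateField ℚ L)
  [Normal ℚ M]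

attribute [local instance] intAlgebra

/-- Restriction maps inertia groups into inertia groups. -/
theorem restrict_mem_inertia {A : ValuationSubring L} {τ : L ≃ₐ[ℚ] L}
    (hτ : τ ∈ A.inertiaSubgroupIn ℚ) :
    AlgEquiv.restrictNormalHom M τ ∈ (A.comap (algebraMap M L)).inertiaSubgroupIn ℚ := by
  have hd : τ ∈ A.decompositionSubgroup ℚ := by
    obtain ⟨τ', -, rfl⟩ := hτ
    exact τ'.2
  refine mem_inertiaSubgroupIn_of_forall (restrict_mem_decomposition M hd) fun w hw => ?_
  rw [mem_nonunits_comap_iff, map_sub]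
  have := AlgEquiv.restrictNormal_commutes τ M w
  change algebraMap M L (τ.restrictNormal M w) - algebraMap M L w ∈ A.nonunits
  rw [this]
  exact apply_sub_mem_nonunits hτ (ValuationSubring.mem_comap.1 hw)

/-- an element of the decomposition group acting trivially on `𝓞_L / Q` is in the inertia group. -/
theorem mem_inertia_of_forall_int {A : ValuationSubring L} {τ : L ≃ₐ[ℚ] L}
    (hd : τ ∈ A.decompositionSubgroup ℚ)
    (h : ∀ s : integralClosure ℤ L, τ (s : L) - s ∈ A.nonunits) :
    τ ∈ A.inertiaSubgroupIn ℚ := by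
  haveI : CharZero L := algebraRat.charZero L
  refine mem_inertiaSubgroupIn_of_forall hd fun w hw => ?_
  obtain ⟨a, s, hs, hws⟩ := exists_mul_eq A (isAlgebraic_int w) hw
  -- `w = a / s`
  have hsA : (s : L) ∈ A := coe_mem A s
  have hs0 : (s : L) ≠ 0 := by
    rintro h0
    apply hs
    rw [mem_primeOf, h0]
    exact A.nonunits.zero_mem
  have hτs0 : τ (s : L) ≠ 0 := by simpa using hs0
  have hw' : w = (a : L) / s := by rw [← hws]; field_simp
  -- valuations
  have hvs : A.valuation (s : L) = 1 := by
    rw [mem_primeOf, A.mem_nonunits_iff, not_lt] at hs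
    exact le_antisymm ((A.valuation_le_one_iff _).2 hsA) hs
  have hτsA : τ (s : L) ∈ A := coe_mem A (τ • s)
  have hvτs : A.valuation (τ (s : L)) = 1 := by
    have h1 := h s
    rw [A.mem_nonunits_iff] at h1
    have h2 : A.valuation (τ (s : L)) = A.valuation ((s : L) + (τ (s : L) - s)) := by ring_nf
    rw [h2, Valuation.map_add_eq_of_lt_left _ (by rw [hvs]; exact h1), hvs]
  have key : τ w - w = ((τ (a : L) - a) * s - a * (τ (s : L) - s)) / (s * τ (s : L)) := by
    rw [hw', map_div₀]
    field_simp
    ring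
  rw [key, A.mem_nonunits_iff, map_div₀, map_mul, hvs, hvτs, one_mul, div_one]
  have h1 := h a
  have h2 := h s
  rw [A.mem_nonunits_iff] at h1 h2
  refine lt_of_le_of_lt (A.valuation.map_sub _ _) (max_lt ?_ ?_)
  · rw [map_mul, hvs, mul_one]; exact h1
  · rw [map_mul]
    calc A.valuation (a : L) * A.valuation (τ (s : L) - s)
        ≤ 1 * A.valuation (τ (s : L) - s) := by
          gcongr
          exact (A.valuation_le_one_iff _).2 (coe_mem A a)
      _ < 1 := by rw [one_mul]; exact h2

end Main2

section Main3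

variable {L : Type*} [Field L] [Algebra ℚ L] [IsGalois ℚ L] (M : IntermediateField ℚ L)
  [Normal ℚ M]

attribute [local instance] intAlgebra

/-- **Inertia groups surject under restriction.** -/
theorem exists_mem_inertia (A : ValuationSubring L) (σ : M ≃ₐ[ℚ] M)
    (hσ : σ ∈ (A.comap (algebraMap M L)).inertiaSubgroupIn ℚ) :
    ∃ τ ∈ A.inertiaSubgroupIn ℚ, AlgEquiv.restrictNormalHom M τ = σ := by
  classical
  have hσd : σ ∈ (A.comap (algebraMap M L)).decompositionSubgroup ℚ := by
    obtain ⟨σ', -, rfl⟩ := hσ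
    exact σ'.2
  obtain ⟨τ1, hτ1d, hτ1σ⟩ := exists_mem_decomposition M A σ hσd
  set Q : Ideal (integralClosure ℤ L) := primeOf A with hQ
  set q : Ideal (integralClosure ℤ M) := Q.under (integralClosure ℤ M) with hq
  haveI : Q.LiesOver q := ⟨rfl⟩
  have hτ1Q : τ1 • Q = Q := by
    rw [hQ, ← primeOf_smul, MulAction.mem_stabilizer_iff.1 hτ1d]
  -- `τ1` acts trivially on the image of `𝓞_M`
  have hfix : ∀ r : integralClosure ℤ M,
      τ1 • (algebraMap (integralClosure ℤ M) (integralClosure ℤ L) r) -
        algebraMap (integralClosure ℤ M) (integralClosure ℤ L) r ∈ Q := by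
    intro r
    rw [hQ, mem_primeOf]
    change τ1 (algebraMap M L (r : M)) - algebraMap M L (r : M) ∈ A.nonunits
    have h1 := AlgEquiv.restrictNormal_commutes τ1 M (r : M)
    have h2 : τ1.restrictNormal M (r : M) = σ (r : M) := by rw [← hτ1σ]; rfl
    rw [← h1, h2, ← map_sub, ← mem_nonunits_comap_iff]
    exact apply_sub_mem_nonunits hσ (coe_mem _ r)
  -- the automorphism of `𝓞_L / Q` over `𝓞_M / q` induced by `τ1`
  let e0 : (integralClosure ℤ L ⧸ Q) ≃+* (integralClosure ℤ L ⧸ Q) :=
    Ideal.quotientEquiv Q Q (MulSemiringAction.toRingEquiv (L ≃ₐ[ℚ] L) (integralClosure ℤ L) τ1)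
      (by
        conv_lhs => rw [← hτ1Q]
        rfl)
  have he0 : ∀ s : integralClosure ℤ L, e0 (Ideal.Quotient.mk Q s) = Ideal.Quotient.mk Q (τ1 • s) :=
    fun s => rfl
  let φ : (integralClosure ℤ L ⧸ Q) ≃ₐ[integralClosure ℤ M ⧸ q] (integralClosure ℤ L ⧸ Q) :=
    AlgEquiv.ofRingEquiv (f := e0) (by
      intro x
      obtain ⟨r, rfl⟩ := Ideal.Quotient.mk_surjective x
      rw [Ideal.Quotient.algebraMap_mk_of_liesOver, he0, Ideal.Quotient.eq]
      exact hfix r)
  obtain ⟨ρ', hρ'⟩ := stabilizerHom_surjective (M := M) (L := L) q Q φ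
  have hρQ : (ρ' : L ≃ₐ[M] L) • Q = Q := ρ'.2
  have hρs : ∀ s : integralClosure ℤ L, (ρ' : L ≃ₐ[M] L) • s - τ1 • s ∈ Q := by
    intro s
    have := DFunLike.congr_fun hρ' (Ideal.Quotient.mk Q s)
    rw [Ideal.Quotient.stabilizerHom_apply] at this
    change _ = e0 (Ideal.Quotient.mk Q s) at this
    rw [he0] at this
    exact Ideal.Quotient.eq.1 this
  set ρ : L ≃ₐ[M] L := ρ'.1 with hρdef
  refine ⟨(ρ.restrictScalars ℚ)⁻¹ * τ1, ?_, ?_⟩
  · have hρA : (ρ.restrictScalars ℚ) • A = A := by
      rw [restrictScalars_smul]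
      haveI : CharZero L := algebraRat.charZero L
      exact smul_eq_of_primeOf_eq isAlgebraic_int ρ A A hρQ.symm
    have hd : (ρ.restrictScalars ℚ)⁻¹ * τ1 ∈ A.decompositionSubgroup ℚ :=
      Subgroup.mul_mem _ (Subgroup.inv_mem _ (MulAction.mem_stabilizer_iff.2 hρA)) hτ1d
    refine mem_inertia_of_forall_int hd fun s => ?_
    -- `ρ⁻¹ (τ1 s) - s = ρ⁻¹ (τ1 s - ρ s)`
    have h1 : ((ρ.restrictScalars ℚ)⁻¹ * τ1) (s : L) - s =
        (ρ⁻¹ • (τ1 • s - ρ • s : integralClosure ℤ L) : integralClosure ℤ L) := by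
      change ρ.symm (τ1 (s : L)) - s = ρ.symm (τ1 (s : L) - ρ (s : L))
      rw [map_sub, AlgEquiv.symm_apply_apply]
    rw [h1, ← mem_primeOf, ← hQ]
    have h2 : τ1 • s - ρ • s ∈ Q := by
      have := Q.neg_mem (hρs s)
      rwa [neg_sub] at this
    have h3 : ρ⁻¹ • Q = Q := by
      conv_lhs => rw [← hρQ]
      rw [inv_smul_smul]
    rw [← h3, Ideal.smul_mem_pointwise_smul_iff]
    exact h2
  · rw [map_mul, map_inv, restrictNormalHom_restrictScalars, inv_one, one_mul, hτ1σ]

end Main3

section Ext

variable {M L : Type*} [Field M] [Field L]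

/-- Every valuation subring of `M` is the restriction of a valuation subring of an extension
field `L`. -/
theorem exists_comap_eq (f : M →+* L) (B : ValuationSubring M) :
    ∃ A : ValuationSubring L, A.comap f = B := by
  obtain ⟨A, hle, hloc⟩ := (B.toLocalSubring.map f).exists_le_valuationSubring
  refine ⟨A, ?_⟩
  have hBA : ∀ x ∈ B, f x ∈ A := fun x hx => hle ⟨x, hx, rfl⟩
  symm
  apply le_antisymm
  · intro x hx
    exact ValuationSubring.mem_comap.2 (hBA x hx)
  · intro x hx
    rw [ValuationSubring.mem_comap] at hx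
    by_contra hxB
    have hx0 : x ≠ 0 := by rintro rfl; exact hxB B.zero_mem
    have hinv : x⁻¹ ∈ B := (B.mem_or_inv_mem x).resolve_left hxB
    -- `f x⁻¹` is a unit of `A`, hence `x⁻¹` is a unit of `B`
    let y : (B.toLocalSubring.map f).toSubring := ⟨f x⁻¹, ⟨x⁻¹, hinv, rfl⟩⟩
    have hy : IsUnit (Subring.inclusion hle y) := by
      refine isUnit_iff_exists_inv.mpr ⟨⟨f x, hx⟩, Subtype.ext ?_⟩
      change f x⁻¹ * f x = 1
      rw [← map_mul, inv_mul_cancel₀ hx0, map_one]
    have hy' : IsUnit y := hloc.map_nonunit y hy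
    obtain ⟨⟨z, w, hw, rfl⟩, hz⟩ := isUnit_iff_exists_inv.mp hy'
    have hz' : f x⁻¹ * f w = 1 := congrArg Subtype.val hz
    rw [← map_mul, ← map_one f] at hz'
    have := f.injective hz'
    have hwx : w = x := by
      field_simp at this
      exact this
    exact hxB (hwx ▸ hw)

end Ext

end Fermat.Agent.Lib.InertiaRestrict
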