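import Mathlib
import Fermat.Agent.Lib.InertiaBridge

/-!
# Unramified characters of `Gal(ℚ̄/ℚ)` are trivial (Hermite–Minkowski), and the bridge from
inertia groups of valuation subrings of `ℚ̄` to ramification in number fields

`L/ℚ` is a Galois extension (typically `L = AlgebraicClosure ℚ`), `K` a number field, Galois over
`ℚ`, with an embedding `ι : K →+* L`; `H = Gal(L/ι K)`.

* `inertia_eq_bot`: if the inertia groups (Prelude: `ValuationSubring.inertiaSubgroupIn ℚ`) of all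
  valuation subrings of `L` over `ℓ` are contained in `H`, then every prime of `𝓞 K` over `ℓ` has
  trivial inertia group in `Gal(K/ℚ)`;
* `isUnramifiedAt`: ... hence is unramified over `ℤ`;
* `eq_top_of_inertia_le`: an open normal subgroup of `Gal(L/ℚ)` containing all inertia groups is
  everything (Hermite–Minkowski);
* `eq_one_of_unramified`: a homomorphism from `Gal(L/ℚ)` with open kernel that kills all inertia
  groups is trivial.
-/

set_option autoImplicit false

namespace Fermat.Agent.Lib.UnramifiedTrivial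

open scoped Pointwise NumberField
open Fermat.Agent.Lib.InertiaBridge

section Bridge

variable {L : Type*} [Field L] [Algebra ℚ L]
variable {K : Type*} [Field K] [NumberField K]

omit [Algebra ℚ L] [NumberField K] in
/-- A valuation subring of `L` lying over a given proper ideal of the ring of integers of a
subfield. -/
theorem exists_valuationSubring_over (ι : K →+* L) (P : Ideal (𝓞 K)) (hP : P ≠ ⊤) :
    ∃ A : ValuationSubring L, ∀ x : 𝓞 K, x ∈ P → ι (x : K) ∈ A.nonunits := by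
  let f : 𝓞 K →+* L := ι.comp (algebraMap (𝓞 K) K)
  have hf : Function.Injective f :=
    ι.injective.comp (NumberField.RingOfIntegers.coe_injective)
  let e : 𝓞 K ≃+* f.range := RingEquiv.ofLeftInverse (g := fun y => (hf.hasLeftInverse.choose y))
    (fun x => hf.hasLeftInverse.choose_spec x)
  let I : Ideal f.range := Ideal.comap (e.symm : f.range →+* 𝓞 K) P
  have hI : I ≠ ⊤ := Ideal.comap_ne_top _ hP
  obtain ⟨A, -, hA⟩ := Ideal.image_subset_nonunits_valuationSubring I hI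
  refine ⟨A, fun x hx => ?_⟩
  apply hA
  refine ⟨e x, ?_, rfl⟩
  change e.symm (e x) ∈ P
  rwa [RingEquiv.symm_apply_apply]

variable [IsGalois ℚ L] [IsGalois ℚ K]

omit [NumberField K] [IsGalois ℚ K] in
/-- The subgroup `Gal(L/ι K)` is closed. -/
theorem isClosed_of_forall (ι : K →+* L) (H : Subgroup (L ≃ₐ[ℚ] L))
    (hH : ∀ σ : L ≃ₐ[ℚ] L, σ ∈ H ↔ ∀ x : K, σ (ι x) = ι x) :
    IsClosed (H : Set (L ≃ₐ[ℚ] L)) := by
  have : (H : Set (L ≃ₐ[ℚ] L)) =
      ⋂ x : K, (MulAction.stabilizer (L ≃ₐ[ℚ] L) (ι x) : Set (L ≃ₐ[ℚ] L)) := by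
    ext σ
    simp only [SetLike.mem_coe, hH, Set.mem_iInter, MulAction.mem_stabilizer_iff]
    rfl
  rw [this]
  exact isClosed_iInter fun x =>
    Subgroup.isClosed_of_isOpen _ (stabilizer_isOpen_of_isIntegral (ι x))

omit [IsGalois ℚ L] in
/-- The subgroup `Gal(L/ι K)` is normal (`K/ℚ` being normal). -/
theorem normal_of_forall (ι : K →+* L) (H : Subgroup (L ≃ₐ[ℚ] L))
    (hH : ∀ σ : L ≃ₐ[ℚ] L, σ ∈ H ↔ ∀ x : K, σ (ι x) = ι x) : H.Normal := by
  let _ : Algebra K L := ι.toAlgebra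
  have : IsScalarTower ℚ K L := IsScalarTower.of_algebraMap_eq' (Subsingleton.elim _ _)
  constructor
  intro h hh g
  rw [hH] at hh ⊢
  intro x
  have h1 : ι ((g⁻¹).restrictNormal K x) = g⁻¹ (ι x) := AlgEquiv.restrictNormal_commutes g⁻¹ K x
  change g (h (g⁻¹ (ι x))) = ι x
  rw [← h1, hh, h1]
  change (g * g⁻¹) (ι x) = ι x
  rw [mul_inv_cancel]
  rfl

/-- **Bridge.** If the inertia groups of all valuation subrings of `L` over `ℓ` fix `ι K`
pointwise, then every prime of `𝓞 K` over `ℓ` has trivial inertia group in `Gal(K/ℚ)`. -/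
theorem inertia_eq_bot (ι : K →+* L) (H : Subgroup (L ≃ₐ[ℚ] L))
    (hH : ∀ σ : L ≃ₐ[ℚ] L, σ ∈ H ↔ ∀ x : K, σ (ι x) = ι x)
    (ℓ : ℕ)
    (hunr : ∀ A : ValuationSubring L, A.LiesOverPrime ℓ → A.inertiaSubgroupIn ℚ ≤ H)
    (P : Ideal (𝓞 K)) (hPtop : P ≠ ⊤) (hP : (ℓ : 𝓞 K) ∈ P) :
    Ideal.inertia (K ≃ₐ[ℚ] K) P = ⊥ := by
  have hHc := isClosed_of_forall ι H hH
  have hHn := normal_of_forall ι H hH
  let _ : Algebra K L := ι.toAlgebra
  have : IsScalarTower ℚ K L := IsScalarTower.of_algebraMap_eq' (Subsingleton.elim _ _)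
  rw [eq_bot_iff]
  intro t ht
  rw [Subgroup.mem_bot]
  obtain ⟨τ, hτ⟩ := AlgEquiv.restrictNormalHom_surjective (F := ℚ) (K₁ := K) L t
  have hτι : ∀ x : K, τ (ι x) = ι (t x) := fun x => by
    rw [← hτ]
    exact (AlgEquiv.restrictNormal_commutes τ K x).symm
  obtain ⟨A, hA⟩ := exists_valuationSubring_over ι P hPtop
  have hAℓ : A.LiesOverPrime ℓ := by
    have := hA _ hP
    simpa [ValuationSubring.LiesOverPrime] using this
  -- hypothesis of the lifting lemma
  have hfix : ∀ b : integralClosure ℤ L, (∀ h ∈ H, h • b = b) →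
      τ (b : L) - (b : L) ∈ A.nonunits := by
    intro b hb
    have hbE : (b : L) ∈ (IsScalarTower.toAlgHom ℚ K L).fieldRange := by
      rw [← InfiniteGalois.fixedField_fixingSubgroup (IsScalarTower.toAlgHom ℚ K L).fieldRange,
        IntermediateField.mem_fixedField_iff]
      intro f hf
      have hfH : f ∈ H := by
        rw [hH]
        intro x
        exact (IntermediateField.mem_fixingSubgroup_iff _ _).1 hf (ι x) ⟨x, rfl⟩
      exact congrArg Subtype.val (hb f hfH)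
    obtain ⟨x, hx⟩ := hbE
    have hx' : ι x = (b : L) := hx
    have hxint : IsIntegral ℤ x := by
      have h1 : IsIntegral ℤ ((ι.toIntAlgHom : K →ₐ[ℤ] L) x) := by
        change IsIntegral ℤ (ι x)
        rw [hx']
        exact b.2
      exact (isIntegral_algHom_iff (ι.toIntAlgHom : K →ₐ[ℤ] L) ι.injective).1 h1
    let y : 𝓞 K := IsIntegralClosure.mk' (𝓞 K) x hxint
    have hyx : ((y : 𝓞 K) : K) = x := IsIntegralClosure.algebraMap_mk' (𝓞 K) x hxint
    have hy : t • y - y ∈ P := ht y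
    have h2 := hA _ hy
    have e : ι (((t • y - y : 𝓞 K)) : K) = τ (b : L) - (b : L) := by
      have : (((t • y - y : 𝓞 K)) : K) = t (y : K) - (y : K) := by
        push_cast
        rfl
      rw [this, hyx, map_sub, ← hτι, hx']
    rw [e] at h2
    exact h2
  obtain ⟨σ, hσ, g, hg, rfl⟩ := exists_mem_inertiaSubgroupIn_mul_mem A H hHc τ hfix
  have hσH : g * τ ∈ H := hunr A hAℓ hσ
  have hτH : τ ∈ H := by
    have := H.mul_mem (H.inv_mem hg) hσH
    simpa using this
  ext x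
  apply ι.injective
  rw [← hτι]
  exact (hH τ).1 hτH x

/-- **Bridge.** If the inertia groups of all valuation subrings of `L` over `ℓ` fix `ι K`
pointwise, then every prime of `𝓞 K` over `ℓ` is unramified over `ℤ`. -/
theorem isUnramifiedAt (ι : K →+* L) (H : Subgroup (L ≃ₐ[ℚ] L))
    (hH : ∀ σ : L ≃ₐ[ℚ] L, σ ∈ H ↔ ∀ x : K, σ (ι x) = ι x)
    (ℓ : ℕ)
    (hunr : ∀ A : ValuationSubring L, A.LiesOverPrime ℓ → A.inertiaSubgroupIn ℚ ≤ H)
    (P : Ideal (𝓞 K)) [hPp : P.IsPrime] (hP : (ℓ : 𝓞 K) ∈ P) :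
    Algebra.IsUnramifiedAt ℤ P := by
  have hI := inertia_eq_bot ι H hH ℓ hunr P hPp.ne_top hP
  have := IsGaloisGroup.of_isFractionRing (K ≃ₐ[ℚ] K) ℤ (𝓞 K) ℚ K
  have hcard := Ideal.card_inertia_eq_ramificationIdxIn (G := K ≃ₐ[ℚ] K) (P.under ℤ) P
  rw [hI, Subgroup.card_bot] at hcard
  rw [← Ideal.ramificationIdx_eq_one_iff,
    ← Ideal.ramificationIdxIn_eq_ramificationIdx (P.under ℤ) P (K ≃ₐ[ℚ] K), ← hcard]

end Bridge

section MK

variable {L : Type*} [Field L] [Algebra ℚ L] [IsGalois ℚ L]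

/-- Hermite–Minkowski, abstract form: `K` a number field, Galois over `ℚ`, embedded in `L` by
`ι`, `H = Gal(L/ι K)`; if `H` contains all inertia groups then `H = ⊤` (i.e. `K = ℚ`). -/
theorem eq_top_of_inertia_le_aux {K : Type*} [Field K] [NumberField K] [IsGalois ℚ K]
    (ι : K →+* L) (H : Subgroup (L ≃ₐ[ℚ] L))
    (hH : ∀ σ : L ≃ₐ[ℚ] L, σ ∈ H ↔ ∀ x : K, σ (ι x) = ι x)
    (hunr : ∀ ℓ : ℕ, ℓ.Prime → ∀ A : ValuationSubring L, A.LiesOverPrime ℓ →
      A.inertiaSubgroupIn ℚ ≤ H) : H = ⊤ := by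
  by_contra hne
  -- the degree is at least two
  have hdeg : 1 < Module.finrank ℚ K := by
    by_contra hle
    have h1 : Module.finrank ℚ K = 1 := by
      have : 0 < Module.finrank ℚ K := Module.finrank_pos
      omega
    apply hne
    rw [eq_top_iff]
    intro σ _
    rw [hH]
    intro x
    obtain ⟨q, rfl⟩ := (Algebra.finrank_eq_one_iff_bijective_algebraMap.mp h1).2 x
    have : ι (algebraMap ℚ K q) = algebraMap ℚ L q := by
      rw [eq_ratCast, eq_ratCast, map_ratCast]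
    rw [this, AlgEquiv.commutes]
  obtain ⟨p, hp, hram⟩ :=
    NumberField.exists_not_isUnramifiedAt_int_of_isGalois (K := K) (𝒪 := 𝓞 K) hdeg
  -- a prime of `𝓞 K` over `p`
  have : Fact p.Prime := ⟨hp⟩
  have : (Ideal.span {(p : ℤ)}).IsMaximal := Int.ideal_span_isMaximal_of_prime p
  obtain ⟨Q, hQmax, hQP⟩ :=
    Ideal.exists_maximal_ideal_liesOver_of_isIntegral (S := 𝓞 K) (Ideal.span {(p : ℤ)})
  have hpQ : (p : 𝓞 K) ∈ Q := by
    have h0 := (Ideal.mem_of_liesOver Q (Ideal.span {(p : ℤ)}) (p : ℤ)).mp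
      (Ideal.subset_span rfl)
    simpa using h0
  have hQprime : Q.IsPrime := hQmax.isPrime
  exact hram Q hQprime hpQ (isUnramifiedAt ι H hH p (hunr p hp) Q hpQ)

/-- **Hermite–Minkowski for subgroups of `Gal(L/ℚ)`.** An open normal subgroup of `Gal(L/ℚ)`
containing the inertia groups of all valuation subrings of `L` over all primes is everything. -/
theorem eq_top_of_inertia_le (H : Subgroup (L ≃ₐ[ℚ] L)) [hHn : H.Normal]
    (hopen : IsOpen (H : Set (L ≃ₐ[ℚ] L)))
    (hunr : ∀ ℓ : ℕ, ℓ.Prime → ∀ A : ValuationSubring L, A.LiesOverPrime ℓ →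
      A.inertiaSubgroupIn ℚ ≤ H) : H = ⊤ := by
  have hHc : IsClosed (H : Set (L ≃ₐ[ℚ] L)) := Subgroup.isClosed_of_isOpen H hopen
  set M : IntermediateField ℚ L := IntermediateField.fixedField H with hM
  have hfix : M.fixingSubgroup = H :=
    InfiniteGalois.fixingSubgroup_fixedField (⟨H, hHc⟩ : ClosedSubgroup (L ≃ₐ[ℚ] L))
  -- finiteness and normality, for the `IntermediateField` instances
  have hfin0 : @Module.Finite ℚ M _ _ M.module' :=
    (InfiniteGalois.isOpen_iff_finite M).1 (by rw [hfix]; exact hopen)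
  have hgal0 : @IsGalois ℚ _ M _ M.algebra' :=
    (InfiniteGalois.normal_iff_isGalois M).1 (by rw [hfix]; exact hHn)
  -- transport to the default `ℚ`-algebra structure on the field `M`
  have e1 : (M.algebra' : Algebra ℚ M) = DivisionRing.toRatAlgebra := Subsingleton.elim _ _
  have e2 : (M.module' : Module ℚ M) =
      @Algebra.toModule ℚ M _ _ DivisionRing.toRatAlgebra := Subsingleton.elim _ _
  have hfin : @Module.Finite ℚ M _ _ (@Algebra.toModule ℚ M _ _ DivisionRing.toRatAlgebra) :=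
    e2 ▸ hfin0
  have hgal : @IsGalois ℚ _ M _ DivisionRing.toRatAlgebra := e1 ▸ hgal0
  have hnf : NumberField M := { to_charZero := inferInstance, to_finiteDimensional := hfin }
  have hH : ∀ σ : L ≃ₐ[ℚ] L, σ ∈ H ↔ ∀ x : M, σ (algebraMap M L x) = algebraMap M L x := by
    intro σ
    rw [← hfix, IntermediateField.mem_fixingSubgroup_iff]
    exact ⟨fun h x => h x x.2, fun h x hx => h ⟨x, hx⟩⟩
  exact @eq_top_of_inertia_le_aux L _ _ _ M _ hnf hgal (algebraMap M L) H hH hunr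

/-- **Unramified characters are trivial.** A homomorphism from `Gal(L/ℚ)` (e.g.
`L = AlgebraicClosure ℚ`) to any group, with open kernel, which kills the inertia groups of all
valuation subrings of `L` over all primes, is trivial. -/
theorem eq_one_of_unramified {X : Type*} [Group X] (θ : (L ≃ₐ[ℚ] L) →* X)
    (hopen : IsOpen (θ.ker : Set (L ≃ₐ[ℚ] L)))
    (hunr : ∀ ℓ : ℕ, ℓ.Prime → ∀ A : ValuationSubring L, A.LiesOverPrime ℓ →
      ∀ σ ∈ A.inertiaSubgroupIn ℚ, θ σ = 1) (σ : L ≃ₐ[ℚ] L) : θ σ = 1 := by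
  have h := eq_top_of_inertia_le θ.ker hopen
    (fun ℓ hℓ A hA τ hτ => MonoidHom.mem_ker.mpr (hunr ℓ hℓ A hA τ hτ))
  have : σ ∈ θ.ker := by rw [h]; trivial
  exact MonoidHom.mem_ker.mp this

end MK

section Qbar

/-- `AlgebraicClosure ℚ` is Galois over `ℚ` for the default `ℚ`-algebra structure (the one used by
the Prelude for `Gal(ℚ̄/ℚ)`). -/
theorem isGalois_algebraicClosure_rat : IsGalois ℚ (AlgebraicClosure ℚ) := by
  have h : (DivisionRing.toRatAlgebra : Algebra ℚ (AlgebraicClosure ℚ)) =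
      AlgebraicClosure.instAlgebra ℚ := Subsingleton.elim _ _
  rw [h]
  infer_instance

/-- **Unramified characters of `Gal(ℚ̄/ℚ)` are trivial**, in the Prelude's language. -/
theorem eq_one_of_unramified_algebraicClosure {X : Type*} [Group X]
    (θ : (AlgebraicClosure ℚ ≃ₐ[ℚ] AlgebraicClosure ℚ) →* X)
    (hopen : IsOpen (θ.ker : Set (AlgebraicClosure ℚ ≃ₐ[ℚ] AlgebraicClosure ℚ)))
    (hunr : ∀ ℓ : ℕ, ℓ.Prime → ∀ A : ValuationSubring (AlgebraicClosure ℚ),
      A.LiesOverPrime ℓ → ∀ σ ∈ A.inertiaSubgroupIn ℚ, θ σ = 1)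
    (σ : AlgebraicClosure ℚ ≃ₐ[ℚ] AlgebraicClosure ℚ) : θ σ = 1 :=
  haveI : IsGalois ℚ (AlgebraicClosure ℚ) := isGalois_algebraicClosure_rat
  eq_one_of_unramified θ hopen hunr σ

/-- Subgroup form: an open normal subgroup of `Gal(ℚ̄/ℚ)` containing all inertia groups is
everything. -/
theorem eq_top_of_inertia_le_algebraicClosure
    (H : Subgroup (AlgebraicClosure ℚ ≃ₐ[ℚ] AlgebraicClosure ℚ)) [H.Normal]
    (hopen : IsOpen (H : Set (AlgebraicClosure ℚ ≃ₐ[ℚ] AlgebraicClosure ℚ)))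
    (hunr : ∀ ℓ : ℕ, ℓ.Prime → ∀ A : ValuationSubring (AlgebraicClosure ℚ),
      A.LiesOverPrime ℓ → A.inertiaSubgroupIn ℚ ≤ H) : H = ⊤ :=
  haveI : IsGalois ℚ (AlgebraicClosure ℚ) := isGalois_algebraicClosure_rat
  eq_top_of_inertia_le H hopen hunr

end Qbar

end Fermat.Agent.Lib.UnramifiedTrivial
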